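import Fermat.Agent.FLTSmall.KummerLemma
import Mathlib.NumberTheory.NumberField.Cyclotomic.Basic
import Mathlib.Tactic.FinCases
import Mathlib.Tactic.NormNum.Prime

/-! Certificates for Kummer's lemma at 5, 11 and 13. -/

set_option autoImplicit false

namespace Fermat.Agent.FLTSmall.Kummer

open NumberField

theorem mem_dlogIdeal_of_eq {p : ℕ} [Fact p.Prime] {K : Type*} [Field K] [NumberField K]
    [IsCyclotomicExtension {p} ℚ K] {ζ : K} (hζ : IsPrimitiveRoot ζ p) {x A B : 𝓞 K}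
    (h : x = (hζ.toInteger - 1) ^ (p - 2) * A + (p : 𝓞 K) * B) : x ∈ dlogIdeal hζ := by
  rw [h]
  exact add_mem (Ideal.mul_mem_right _ _ (Ideal.mem_span_singleton_self _))
    (Ideal.mul_mem_right _ _ (natCast_mem_dlogIdeal hζ))

/-- Logarithmic derivatives of `ζ` and `1 + ... + ζ ^ (k - 1)`, `2 ≤ k ≤ 2`. -/
def dlogMatrix_five : Matrix (Fin 2) (Fin (5 - 2)) ℤ :=
  !![1, 0, 0;
    -2, -1, -2]

/-- A left inverse of `dlogMatrix_five` modulo `5`. -/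
def dlogInverse_five : Matrix (Fin (5 - 2)) (Fin 2) (ZMod 5) :=
  !![1, 0;
    3, 4;
    0, 0]

theorem dlogMatrix_five_mul_inverse :
    dlogMatrix_five.map (Int.cast : ℤ → ZMod 5) * dlogInverse_five = 1 := by
  decide +kernel

theorem kummer_five (K : Type*) [Field K] [NumberField K] [IsCyclotomicExtension {5} ℚ K]
    (u : (𝓞 K)ˣ) (hu : ∃ n : ℤ, ((5 : ℕ) : 𝓞 K) ∣ (u : 𝓞 K) - n) :
    ∃ v : (𝓞 K)ˣ, u = v ^ 5 := by
  have : Fact (Nat.Prime 5) := ⟨by norm_num⟩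
  have hζ := IsCyclotomicExtension.zeta_spec 5 ℚ K
  have hz := hζ.toInteger_isPrimitiveRoot
  let wu : ∀ k : ℕ, k.Coprime 5 → (𝓞 K)ˣ := fun k hk =>
    (hz.geom_sum_isUnit (by norm_num) hk).unit
  refine kummer_of_dlog hζ (m := 2) (by norm_num) (by norm_num)
    ![(hz.isUnit (by norm_num)).unit, wu 2 (by norm_num)]
    dlogMatrix_five (fun i => ?_) dlogInverse_five dlogMatrix_five_mul_inverse u hu
  fin_cases i
  · refine (dlog_zeta hζ (IsUnit.unit_spec _)).trans ?_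
    simp [Fin.sum_univ_succ, dlogMatrix_five]
  · refine (dlog_geomSum hζ (k := 2) (IsUnit.unit_spec _)
      ((-2 : 𝓞 K) * (hζ.toInteger - 1) ^ 0 +
          (-1 : 𝓞 K) * (hζ.toInteger - 1) ^ 1 +
          (-2 : 𝓞 K) * (hζ.toInteger - 1) ^ 2) ?_).trans ?_
    · refine mem_dlogIdeal_of_eq hζ (A := (2 : 𝓞 K) * (hζ.toInteger - 1) ^ 0)
        (B := (1 : 𝓞 K) * (hζ.toInteger - 1) ^ 0 +
          (1 : 𝓞 K) * (hζ.toInteger - 1) ^ 1 +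
          (1 : 𝓞 K) * (hζ.toInteger - 1) ^ 2) ?_
      simp only [Finset.sum_range_succ, Finset.sum_range_zero]
      push_cast
      ring
    · simp [Fin.sum_univ_succ, dlogMatrix_five, map_ofNat]
      try ring

/-- Logarithmic derivatives of `ζ` and `1 + ... + ζ ^ (k - 1)`, `2 ≤ k ≤ 5`. -/
def dlogMatrix_eleven : Matrix (Fin 5) (Fin (11 - 2)) ℤ :=
  !![1, 0, 0, 0, 0, 0, 0, 0, 0;
    -5, 3, 4, -2, 1, 5, 3, 4, -2;
    1, -3, -4, 5, 0, 2, -2, 5, 3;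
    -4, 4, -2, -2, 4, 2, -1, 4, 0;
    2, 2, -1, 2, 3, -5, 0, 0, 0]

/-- A left inverse of `dlogMatrix_eleven` modulo `11`. -/
def dlogInverse_eleven : Matrix (Fin (11 - 2)) (Fin 5) (ZMod 11) :=
  !![1, 0, 0, 0, 0;
    0, 6, 7, 10, 4;
    0, 0, 0, 0, 0;
    9, 9, 8, 3, 9;
    0, 0, 0, 0, 0;
    4, 6, 6, 3, 5;
    0, 0, 0, 0, 0;
    9, 1, 5, 4, 9;
    0, 0, 0, 0, 0]

theorem dlogMatrix_eleven_mul_inverse :
    dlogMatrix_eleven.map (Int.cast : ℤ → ZMod 11) * dlogInverse_eleven = 1 := by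
  decide +kernel

theorem kummer_eleven (K : Type*) [Field K] [NumberField K] [IsCyclotomicExtension {11} ℚ K]
    (u : (𝓞 K)ˣ) (hu : ∃ n : ℤ, ((11 : ℕ) : 𝓞 K) ∣ (u : 𝓞 K) - n) :
    ∃ v : (𝓞 K)ˣ, u = v ^ 11 := by
  have : Fact (Nat.Prime 11) := ⟨by norm_num⟩
  have hζ := IsCyclotomicExtension.zeta_spec 11 ℚ K
  have hz := hζ.toInteger_isPrimitiveRoot
  let wu : ∀ k : ℕ, k.Coprime 11 → (𝓞 K)ˣ := fun k hk =>
    (hz.geom_sum_isUnit (by norm_num) hk).unit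
  refine kummer_of_dlog hζ (m := 5) (by norm_num) (by norm_num)
    ![(hz.isUnit (by norm_num)).unit, wu 2 (by norm_num), wu 3 (by norm_num), wu 4 (by norm_num), wu 5 (by norm_num)]
    dlogMatrix_eleven (fun i => ?_) dlogInverse_eleven dlogMatrix_eleven_mul_inverse u hu
  fin_cases i
  · refine (dlog_zeta hζ (IsUnit.unit_spec _)).trans ?_
    simp [Fin.sum_univ_succ, dlogMatrix_eleven]
  · refine (dlog_geomSum hζ (k := 2) (IsUnit.unit_spec _)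
      ((-5 : 𝓞 K) * (hζ.toInteger - 1) ^ 0 +
          (3 : 𝓞 K) * (hζ.toInteger - 1) ^ 1 +
          (4 : 𝓞 K) * (hζ.toInteger - 1) ^ 2 +
          (-2 : 𝓞 K) * (hζ.toInteger - 1) ^ 3 +
          (1 : 𝓞 K) * (hζ.toInteger - 1) ^ 4 +
          (5 : 𝓞 K) * (hζ.toInteger - 1) ^ 5 +
          (3 : 𝓞 K) * (hζ.toInteger - 1) ^ 6 +
          (4 : 𝓞 K) * (hζ.toInteger - 1) ^ 7 +
          (-2 : 𝓞 K) * (hζ.toInteger - 1) ^ 8) ?_).trans ?_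
    · refine mem_dlogIdeal_of_eq hζ (A := (2 : 𝓞 K) * (hζ.toInteger - 1) ^ 0)
        (B := (1 : 𝓞 K) * (hζ.toInteger - 1) ^ 0 +
          (-1 : 𝓞 K) * (hζ.toInteger - 1) ^ 2 +
          (-1 : 𝓞 K) * (hζ.toInteger - 1) ^ 5 +
          (-1 : 𝓞 K) * (hζ.toInteger - 1) ^ 6 +
          (-1 : 𝓞 K) * (hζ.toInteger - 1) ^ 7) ?_
      simp only [Finset.sum_range_succ, Finset.sum_range_zero]
      push_cast
      ring
    · simp [Fin.sum_univ_succ, dlogMatrix_eleven, map_ofNat]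
      try ring
  · refine (dlog_geomSum hζ (k := 3) (IsUnit.unit_spec _)
      ((1 : 𝓞 K) * (hζ.toInteger - 1) ^ 0 +
          (-3 : 𝓞 K) * (hζ.toInteger - 1) ^ 1 +
          (-4 : 𝓞 K) * (hζ.toInteger - 1) ^ 2 +
          (5 : 𝓞 K) * (hζ.toInteger - 1) ^ 3 +
          (2 : 𝓞 K) * (hζ.toInteger - 1) ^ 5 +
          (-2 : 𝓞 K) * (hζ.toInteger - 1) ^ 6 +
          (5 : 𝓞 K) * (hζ.toInteger - 1) ^ 7 +
          (3 : 𝓞 K) * (hζ.toInteger - 1) ^ 8) ?_).trans ?_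
    · refine mem_dlogIdeal_of_eq hζ (A := (-14 : 𝓞 K) * (hζ.toInteger - 1) ^ 0 +
          (-3 : 𝓞 K) * (hζ.toInteger - 1) ^ 1)
        (B := (1 : 𝓞 K) * (hζ.toInteger - 1) ^ 1 +
          (2 : 𝓞 K) * (hζ.toInteger - 1) ^ 2 +
          (-1 : 𝓞 K) * (hζ.toInteger - 1) ^ 4 +
          (-1 : 𝓞 K) * (hζ.toInteger - 1) ^ 5 +
          (-1 : 𝓞 K) * (hζ.toInteger - 1) ^ 7 +
          (-2 : 𝓞 K) * (hζ.toInteger - 1) ^ 8) ?_
      simp only [Finset.sum_range_succ, Finset.sum_range_zero]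
      push_cast
      ring
    · simp [Fin.sum_univ_succ, dlogMatrix_eleven, map_ofNat]
      try ring
  · refine (dlog_geomSum hζ (k := 4) (IsUnit.unit_spec _)
      ((-4 : 𝓞 K) * (hζ.toInteger - 1) ^ 0 +
          (4 : 𝓞 K) * (hζ.toInteger - 1) ^ 1 +
          (-2 : 𝓞 K) * (hζ.toInteger - 1) ^ 2 +
          (-2 : 𝓞 K) * (hζ.toInteger - 1) ^ 3 +
          (4 : 𝓞 K) * (hζ.toInteger - 1) ^ 4 +
          (2 : 𝓞 K) * (hζ.toInteger - 1) ^ 5 +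
          (-1 : 𝓞 K) * (hζ.toInteger - 1) ^ 6 +
          (4 : 𝓞 K) * (hζ.toInteger - 1) ^ 7) ?_).trans ?_
    · refine mem_dlogIdeal_of_eq hζ (A := (-15 : 𝓞 K) * (hζ.toInteger - 1) ^ 0 +
          (-4 : 𝓞 K) * (hζ.toInteger - 1) ^ 1)
        (B := (2 : 𝓞 K) * (hζ.toInteger - 1) ^ 0 +
          (2 : 𝓞 K) * (hζ.toInteger - 1) ^ 1 +
          (1 : 𝓞 K) * (hζ.toInteger - 1) ^ 2 +
          (1 : 𝓞 K) * (hζ.toInteger - 1) ^ 3 +
          (-2 : 𝓞 K) * (hζ.toInteger - 1) ^ 5 +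
          (-2 : 𝓞 K) * (hζ.toInteger - 1) ^ 6 +
          (-2 : 𝓞 K) * (hζ.toInteger - 1) ^ 7 +
          (-2 : 𝓞 K) * (hζ.toInteger - 1) ^ 8) ?_
      simp only [Finset.sum_range_succ, Finset.sum_range_zero]
      push_cast
      ring
    · simp [Fin.sum_univ_succ, dlogMatrix_eleven, map_ofNat]
      try ring
  · refine (dlog_geomSum hζ (k := 5) (IsUnit.unit_spec _)
      ((2 : 𝓞 K) * (hζ.toInteger - 1) ^ 0 +
          (2 : 𝓞 K) * (hζ.toInteger - 1) ^ 1 +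
          (-1 : 𝓞 K) * (hζ.toInteger - 1) ^ 2 +
          (2 : 𝓞 K) * (hζ.toInteger - 1) ^ 3 +
          (3 : 𝓞 K) * (hζ.toInteger - 1) ^ 4 +
          (-5 : 𝓞 K) * (hζ.toInteger - 1) ^ 5) ?_).trans ?_
    · refine mem_dlogIdeal_of_eq hζ (A := (5 : 𝓞 K) * (hζ.toInteger - 1) ^ 0)
        (B := (-1 : 𝓞 K) * (hζ.toInteger - 1) ^ 3 +
          (-3 : 𝓞 K) * (hζ.toInteger - 1) ^ 4 +
          (-2 : 𝓞 K) * (hζ.toInteger - 1) ^ 5 +
          (1 : 𝓞 K) * (hζ.toInteger - 1) ^ 6 +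
          (3 : 𝓞 K) * (hζ.toInteger - 1) ^ 7 +
          (2 : 𝓞 K) * (hζ.toInteger - 1) ^ 8) ?_
      simp only [Finset.sum_range_succ, Finset.sum_range_zero]
      push_cast
      ring
    · simp [Fin.sum_univ_succ, dlogMatrix_eleven, map_ofNat]
      try ring

/-- Logarithmic derivatives of `ζ` and `1 + ... + ζ ^ (k - 1)`, `2 ≤ k ≤ 6`. -/
def dlogMatrix_thirteen : Matrix (Fin 6) (Fin (13 - 2)) ℤ :=
  !![1, 0, 0, 0, 0, 0, 0, 0, 0, 0, 0;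
    -6, -3, -5, -4, 2, -1, -6, 3, 5, 4, -2;
    1, 5, 4, 3, 0, -1, 1, -5, -4, -3, 0;
    -5, -2, 1, -4, -1, 2, -1, 3, -4, 0, 0;
    2, 2, -1, 5, 6, 2, 0, 2, -2, -3, -5;
    -4, 4, -2, -2, 4, -3, -6, 0, 0, 0, 0]

/-- A left inverse of `dlogMatrix_thirteen` modulo `13`. -/
def dlogInverse_thirteen : Matrix (Fin (13 - 2)) (Fin 6) (ZMod 13) :=
  !![1, 0, 0, 0, 0, 0;
    10, 7, 6, 8, 12, 9;
    0, 0, 0, 0, 0, 0;
    9, 6, 1, 4, 7, 5;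
    0, 0, 0, 0, 0, 0;
    6, 1, 3, 8, 7, 4;
    0, 0, 0, 0, 0, 0;
    12, 12, 12, 10, 4, 10;
    0, 0, 0, 0, 0, 0;
    4, 6, 7, 11, 5, 2;
    0, 0, 0, 0, 0, 0]

theorem dlogMatrix_thirteen_mul_inverse :
    dlogMatrix_thirteen.map (Int.cast : ℤ → ZMod 13) * dlogInverse_thirteen = 1 := by
  decide +kernel

theorem kummer_thirteen (K : Type*) [Field K] [NumberField K] [IsCyclotomicExtension {13} ℚ K]
    (u : (𝓞 K)ˣ) (hu : ∃ n : ℤ, ((13 : ℕ) : 𝓞 K) ∣ (u : 𝓞 K) - n) :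
    ∃ v : (𝓞 K)ˣ, u = v ^ 13 := by
  have : Fact (Nat.Prime 13) := ⟨by norm_num⟩
  have hζ := IsCyclotomicExtension.zeta_spec 13 ℚ K
  have hz := hζ.toInteger_isPrimitiveRoot
  let wu : ∀ k : ℕ, k.Coprime 13 → (𝓞 K)ˣ := fun k hk =>
    (hz.geom_sum_isUnit (by norm_num) hk).unit
  refine kummer_of_dlog hζ (m := 6) (by norm_num) (by norm_num)
    ![(hz.isUnit (by norm_num)).unit, wu 2 (by norm_num), wu 3 (by norm_num), wu 4 (by norm_num), wu 5 (by norm_num), wu 6 (by norm_num)]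
    dlogMatrix_thirteen (fun i => ?_) dlogInverse_thirteen dlogMatrix_thirteen_mul_inverse u hu
  fin_cases i
  · refine (dlog_zeta hζ (IsUnit.unit_spec _)).trans ?_
    simp [Fin.sum_univ_succ, dlogMatrix_thirteen]
  · refine (dlog_geomSum hζ (k := 2) (IsUnit.unit_spec _)
      ((-6 : 𝓞 K) * (hζ.toInteger - 1) ^ 0 +
          (-3 : 𝓞 K) * (hζ.toInteger - 1) ^ 1 +
          (-5 : 𝓞 K) * (hζ.toInteger - 1) ^ 2 +
          (-4 : 𝓞 K) * (hζ.toInteger - 1) ^ 3 +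
          (2 : 𝓞 K) * (hζ.toInteger - 1) ^ 4 +
          (-1 : 𝓞 K) * (hζ.toInteger - 1) ^ 5 +
          (-6 : 𝓞 K) * (hζ.toInteger - 1) ^ 6 +
          (3 : 𝓞 K) * (hζ.toInteger - 1) ^ 7 +
          (5 : 𝓞 K) * (hζ.toInteger - 1) ^ 8 +
          (4 : 𝓞 K) * (hζ.toInteger - 1) ^ 9 +
          (-2 : 𝓞 K) * (hζ.toInteger - 1) ^ 10) ?_).trans ?_
    · refine mem_dlogIdeal_of_eq hζ (A := (2 : 𝓞 K) * (hζ.toInteger - 1) ^ 0)
        (B := (1 : 𝓞 K) * (hζ.toInteger - 1) ^ 0 +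
          (1 : 𝓞 K) * (hζ.toInteger - 1) ^ 1 +
          (1 : 𝓞 K) * (hζ.toInteger - 1) ^ 2 +
          (1 : 𝓞 K) * (hζ.toInteger - 1) ^ 3 +
          (1 : 𝓞 K) * (hζ.toInteger - 1) ^ 6 +
          (-1 : 𝓞 K) * (hζ.toInteger - 1) ^ 8 +
          (-1 : 𝓞 K) * (hζ.toInteger - 1) ^ 9) ?_
      simp only [Finset.sum_range_succ, Finset.sum_range_zero]
      push_cast
      ring
    · simp [Fin.sum_univ_succ, dlogMatrix_thirteen, map_ofNat]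
      try ring
  · refine (dlog_geomSum hζ (k := 3) (IsUnit.unit_spec _)
      ((1 : 𝓞 K) * (hζ.toInteger - 1) ^ 0 +
          (5 : 𝓞 K) * (hζ.toInteger - 1) ^ 1 +
          (4 : 𝓞 K) * (hζ.toInteger - 1) ^ 2 +
          (3 : 𝓞 K) * (hζ.toInteger - 1) ^ 3 +
          (-1 : 𝓞 K) * (hζ.toInteger - 1) ^ 5 +
          (1 : 𝓞 K) * (hζ.toInteger - 1) ^ 6 +
          (-5 : 𝓞 K) * (hζ.toInteger - 1) ^ 7 +
          (-4 : 𝓞 K) * (hζ.toInteger - 1) ^ 8 +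
          (-3 : 𝓞 K) * (hζ.toInteger - 1) ^ 9) ?_).trans ?_
    · refine mem_dlogIdeal_of_eq hζ (A := (3 : 𝓞 K) * (hζ.toInteger - 1) ^ 0)
        (B := (-1 : 𝓞 K) * (hζ.toInteger - 1) ^ 1 +
          (-2 : 𝓞 K) * (hζ.toInteger - 1) ^ 2 +
          (-2 : 𝓞 K) * (hζ.toInteger - 1) ^ 3 +
          (-1 : 𝓞 K) * (hζ.toInteger - 1) ^ 4 +
          (1 : 𝓞 K) * (hζ.toInteger - 1) ^ 7 +
          (2 : 𝓞 K) * (hζ.toInteger - 1) ^ 8 +
          (2 : 𝓞 K) * (hζ.toInteger - 1) ^ 9 +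
          (1 : 𝓞 K) * (hζ.toInteger - 1) ^ 10) ?_
      simp only [Finset.sum_range_succ, Finset.sum_range_zero]
      push_cast
      ring
    · simp [Fin.sum_univ_succ, dlogMatrix_thirteen, map_ofNat]
      try ring
  · refine (dlog_geomSum hζ (k := 4) (IsUnit.unit_spec _)
      ((-5 : 𝓞 K) * (hζ.toInteger - 1) ^ 0 +
          (-2 : 𝓞 K) * (hζ.toInteger - 1) ^ 1 +
          (1 : 𝓞 K) * (hζ.toInteger - 1) ^ 2 +
          (-4 : 𝓞 K) * (hζ.toInteger - 1) ^ 3 +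
          (-1 : 𝓞 K) * (hζ.toInteger - 1) ^ 4 +
          (2 : 𝓞 K) * (hζ.toInteger - 1) ^ 5 +
          (-1 : 𝓞 K) * (hζ.toInteger - 1) ^ 6 +
          (3 : 𝓞 K) * (hζ.toInteger - 1) ^ 7 +
          (-4 : 𝓞 K) * (hζ.toInteger - 1) ^ 8) ?_).trans ?_
    · refine mem_dlogIdeal_of_eq hζ (A := (4 : 𝓞 K) * (hζ.toInteger - 1) ^ 0)
        (B := (2 : 𝓞 K) * (hζ.toInteger - 1) ^ 0 +
          (4 : 𝓞 K) * (hζ.toInteger - 1) ^ 1 +
          (3 : 𝓞 K) * (hζ.toInteger - 1) ^ 2 +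
          (2 : 𝓞 K) * (hζ.toInteger - 1) ^ 3 +
          (2 : 𝓞 K) * (hζ.toInteger - 1) ^ 4 +
          (1 : 𝓞 K) * (hζ.toInteger - 1) ^ 5 +
          (-1 : 𝓞 K) * (hζ.toInteger - 1) ^ 7 +
          (1 : 𝓞 K) * (hζ.toInteger - 1) ^ 9 +
          (1 : 𝓞 K) * (hζ.toInteger - 1) ^ 10) ?_
      simp only [Finset.sum_range_succ, Finset.sum_range_zero]
      push_cast
      ring
    · simp [Fin.sum_univ_succ, dlogMatrix_thirteen, map_ofNat]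
      try ring
  · refine (dlog_geomSum hζ (k := 5) (IsUnit.unit_spec _)
      ((2 : 𝓞 K) * (hζ.toInteger - 1) ^ 0 +
          (2 : 𝓞 K) * (hζ.toInteger - 1) ^ 1 +
          (-1 : 𝓞 K) * (hζ.toInteger - 1) ^ 2 +
          (5 : 𝓞 K) * (hζ.toInteger - 1) ^ 3 +
          (6 : 𝓞 K) * (hζ.toInteger - 1) ^ 4 +
          (2 : 𝓞 K) * (hζ.toInteger - 1) ^ 5 +
          (2 : 𝓞 K) * (hζ.toInteger - 1) ^ 7 +
          (-2 : 𝓞 K) * (hζ.toInteger - 1) ^ 8 +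
          (-3 : 𝓞 K) * (hζ.toInteger - 1) ^ 9 +
          (-5 : 𝓞 K) * (hζ.toInteger - 1) ^ 10) ?_).trans ?_
    · refine mem_dlogIdeal_of_eq hζ (A := (88 : 𝓞 K) * (hζ.toInteger - 1) ^ 0 +
          (67 : 𝓞 K) * (hζ.toInteger - 1) ^ 1 +
          (28 : 𝓞 K) * (hζ.toInteger - 1) ^ 2 +
          (5 : 𝓞 K) * (hζ.toInteger - 1) ^ 3)
        (B := (-2 : 𝓞 K) * (hζ.toInteger - 1) ^ 3 +
          (-6 : 𝓞 K) * (hζ.toInteger - 1) ^ 4 +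
          (-9 : 𝓞 K) * (hζ.toInteger - 1) ^ 5 +
          (-8 : 𝓞 K) * (hζ.toInteger - 1) ^ 6 +
          (-5 : 𝓞 K) * (hζ.toInteger - 1) ^ 7 +
          (-2 : 𝓞 K) * (hζ.toInteger - 1) ^ 8 +
          (1 : 𝓞 K) * (hζ.toInteger - 1) ^ 9 +
          (5 : 𝓞 K) * (hζ.toInteger - 1) ^ 10) ?_
      simp only [Finset.sum_range_succ, Finset.sum_range_zero]
      push_cast
      ring
    · simp [Fin.sum_univ_succ, dlogMatrix_thirteen, map_ofNat]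
      try ring
  · refine (dlog_geomSum hζ (k := 6) (IsUnit.unit_spec _)
      ((-4 : 𝓞 K) * (hζ.toInteger - 1) ^ 0 +
          (4 : 𝓞 K) * (hζ.toInteger - 1) ^ 1 +
          (-2 : 𝓞 K) * (hζ.toInteger - 1) ^ 2 +
          (-2 : 𝓞 K) * (hζ.toInteger - 1) ^ 3 +
          (4 : 𝓞 K) * (hζ.toInteger - 1) ^ 4 +
          (-3 : 𝓞 K) * (hζ.toInteger - 1) ^ 5 +
          (-6 : 𝓞 K) * (hζ.toInteger - 1) ^ 6) ?_).trans ?_
    · refine mem_dlogIdeal_of_eq hζ (A := (6 : 𝓞 K) * (hζ.toInteger - 1) ^ 0)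
        (B := (3 : 𝓞 K) * (hζ.toInteger - 1) ^ 0 +
          (7 : 𝓞 K) * (hζ.toInteger - 1) ^ 1 +
          (9 : 𝓞 K) * (hζ.toInteger - 1) ^ 2 +
          (7 : 𝓞 K) * (hζ.toInteger - 1) ^ 3 +
          (3 : 𝓞 K) * (hζ.toInteger - 1) ^ 4 +
          (1 : 𝓞 K) * (hζ.toInteger - 1) ^ 5 +
          (3 : 𝓞 K) * (hζ.toInteger - 1) ^ 6 +
          (8 : 𝓞 K) * (hζ.toInteger - 1) ^ 7 +
          (11 : 𝓞 K) * (hζ.toInteger - 1) ^ 8 +
          (8 : 𝓞 K) * (hζ.toInteger - 1) ^ 9 +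
          (3 : 𝓞 K) * (hζ.toInteger - 1) ^ 10) ?_
      simp only [Finset.sum_range_succ, Finset.sum_range_zero]
      push_cast
      ring
    · simp [Fin.sum_univ_succ, dlogMatrix_thirteen, map_ofNat]
      try ring

end Fermat.Agent.FLTSmall.Kummer
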