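import Fermat.Agent.FLTSmall.Main
import Fermat.Agent.FLTSmall.KummerInstances
import Mathlib.NumberTheory.NumberField.Cyclotomic.PID

/-! Fermat's Last Theorem for the exponent `5`. -/

set_option autoImplicit false

namespace Fermat.Agent.FLTSmall

open NumberField

theorem residues_eleven_five : ∀ u v : ZMod 11, u ≠ 0 → v ≠ 0 → u ^ 5 + v ^ 5 ≠ 1 := by decide

theorem not_residue_eleven_five : ∀ u : ZMod 11, u ^ 5 ≠ ((5 : ℕ) : ZMod 11) := by decide

set_option backward.isDefEq.respectTransparency false in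
theorem flt_five_coprime {a b c : ℤ} (ha : a ≠ 0) (hb : b ≠ 0) (hc : c ≠ 0)
    (hab : IsCoprime a b) : a ^ 5 + b ^ 5 ≠ c ^ 5 := by
  have : Fact (Nat.Prime 5) := ⟨by norm_num⟩
  have : Fact (Nat.Prime 11) := ⟨by norm_num⟩
  let K := CyclotomicField 5 ℚ
  have := CyclotomicField.isCyclotomicExtension 5 ℚ
  have : NumberField K := IsCyclotomicExtension.numberField {5} ℚ _
  have : IsPrincipalIdealRing (𝓞 K) := IsCyclotomicExtension.Rat.five_pid K
  exact flt_coprime K ⟨2, rfl⟩ (Kummer.kummer_five K) 11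
    residues_eleven_five not_residue_eleven_five ha hb hc hab

end Fermat.Agent.FLTSmall
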