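import Mathlib.NumberTheory.NumberField.ClassNumber
import Mathlib.NumberTheory.NumberField.Cyclotomic.Ideal
import Mathlib.NumberTheory.NumberField.Cyclotomic.Galois
import Mathlib.Analysis.Real.Pi.Bounds
import Mathlib.Tactic.LinearCombination
import Mathlib.Tactic.IntervalCases
import Mathlib.Tactic.NormNum.Prime
import Mathlib.Algebra.Polynomial.SpecificDegree
import Mathlib.Tactic.ComputeDegree

/-!
# `ℤ[ζ₁₃]` is a principal ideal domain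

The Minkowski bound is `< 307`; the only primes with a residue field of at most that size are
above `13, 3, 53, 79, 131, 157`, and for each of these we exhibit a generator.
-/

set_option autoImplicit false

open NumberField Polynomial InfinitePlace Ideal Real
open scoped nonZeroDivisors

namespace Fermat.Agent.FLTSmall.Thirteen

variable {K : Type*} [Field K] [NumberField K] [IsCyclotomicExtension {13} ℚ K]

theorem minkowski_lt : (4 / π) ^ nrComplexPlaces K * ((Nat.factorial (Module.finrank ℚ K) : ℝ) /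
    (Module.finrank ℚ K : ℝ) ^ Module.finrank ℚ K * √|(NumberField.discr K : ℝ)|) < 307 := by
  have : Fact (Nat.Prime 13) := ⟨by norm_num⟩
  rw [IsCyclotomicExtension.Rat.discr_prime 13 K,
    IsCyclotomicExtension.finrank (n := 13) K (cyclotomic.irreducible_rat (by norm_num)),
    IsCyclotomicExtension.Rat.nrComplexPlaces_eq_totient_div_two 13,
    Nat.totient_prime (by norm_num : Nat.Prime 13)]
  have h : √|(((-1) ^ ((13 - 1) / 2) * 13 ^ (13 - 2) : ℤ) : ℝ)| ≤ 371293 * 3.6056 := by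
    rw [Real.sqrt_le_iff]; norm_num
  norm_num [Nat.factorial] at h ⊢
  have h4 : (4 / π) ^ 6 ≤ (4 / 3.1415 : ℝ) ^ 6 := by
    gcongr
    exact pi_gt_d4.le
  calc _ ≤ (4 / 3.1415 : ℝ) ^ 6 * _ := mul_le_mul_of_nonneg_right h4 (by positivity)
    _ < 307 := by norm_num at h ⊢; nlinarith

theorem no_root_cubic : ∀ b : ZMod 3, b ^ 3 - b - 1 ≠ 0 := by decide

theorem exists_principal_prime {ζ : K} (hζ : IsPrimitiveRoot ζ 13) {l : ℕ} [Fact l.Prime]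
    (Q R : ℤ[X]) (hQ : (Q.map (Int.castRingHom (ZMod l))).Monic)
    (hirr : Irreducible (Q.map (Int.castRingHom (ZMod l))))
    {T : ℤ[X]} (hdvd : Q * R = ∑ i ∈ Finset.range 13, X ^ i + C (l : ℤ) * T)
    {x y z a b : 𝓞 K} (h1 : x * y = (l : 𝓞 K)) (h2 : x * z = aeval hζ.toInteger Q)
    (h3 : x = a * (l : 𝓞 K) + b * aeval hζ.toInteger Q) :
    ∃ P ∈ primesOver (span {(l : ℤ)}) (𝓞 K), Submodule.IsPrincipal P := by
  have hexp : ¬ l ∣ RingOfIntegers.exponent hζ.toInteger := by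
    rw [RingOfIntegers.exponent_eq_one_iff.mpr
      (IsCyclotomicExtension.Rat.adjoin_singleton_eq_top hζ)]
    exact (Fact.out : l.Prime).not_dvd_one
  have hmin : (minpoly ℤ hζ.toInteger).map (Int.castRingHom (ZMod l)) = cyclotomic 13 (ZMod l) := by
    rw [← map_cyclotomic_int, cyclotomic_eq_minpoly hζ (by norm_num),
      ← RingOfIntegers.minpoly_coe hζ.toInteger]
    rfl
  have hQmem : Q.map (Int.castRingHom (ZMod l)) ∈
      RingOfIntegers.monicFactorsMod hζ.toInteger l := by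
    rw [Multiset.mem_toFinset, Polynomial.mem_normalizedFactors_iff
      (map_monic_ne_zero (minpoly.monic hζ.toInteger.isIntegral))]
    refine ⟨hirr, hQ, R.map (Int.castRingHom (ZMod l)), ?_⟩
    have : Fact (Nat.Prime 13) := ⟨by norm_num⟩
    rw [hmin, ← Polynomial.map_mul, hdvd, cyclotomic_prime]
    simp [Polynomial.map_sum]
  have heq := NumberField.Ideal.primesOverSpanEquivMonicFactorsMod_symm_apply_eq_span hexp hQmem
  refine ⟨_, ((NumberField.Ideal.primesOverSpanEquivMonicFactorsMod hexp).symm ⟨_, hQmem⟩).prop,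
    ⟨x, ?_⟩⟩
  rw [heq]
  refine le_antisymm ?_ ?_
  · rw [Ideal.span_le, Set.insert_subset_iff, Set.singleton_subset_iff]
    exact ⟨Ideal.mem_span_singleton.mpr ⟨y, h1.symm⟩, Ideal.mem_span_singleton.mpr ⟨z, h2.symm⟩⟩
  · rw [Ideal.submodule_span_eq, Ideal.span_singleton_le_iff_mem, Ideal.mem_span_pair]
    exact ⟨a, b, h3.symm⟩

omit [NumberField K] [IsCyclotomicExtension {13} ℚ K] in
theorem sum_pow_eq_zero {ζ : K} (hζ : IsPrimitiveRoot ζ 13) :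
    ∑ i ∈ Finset.range 13, hζ.toInteger ^ i = 0 :=
  hζ.toInteger_isPrimitiveRoot.geom_sum_eq_zero (by norm_num)

theorem principal_three {ζ : K} (hζ : IsPrimitiveRoot ζ 13) :
    ∃ P ∈ primesOver (span {((3 : ℕ) : ℤ)}) (𝓞 K), Submodule.IsPrincipal P := by
  have : Fact (Nat.Prime 3) := ⟨by norm_num⟩
  have hsum := sum_pow_eq_zero hζ
  simp only [Finset.sum_range_succ, Finset.sum_range_zero] at hsum
  set ζ := hζ.toInteger with hdef
  refine exists_principal_prime hζ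
    (x := (1) * ζ ^ 0 + (1) * ζ ^ 1 + (-1) * ζ ^ 3)
    (y := (-1) * ζ ^ 0 + (-1) * ζ ^ 2 + (-1) * ζ ^ 3 + (-2) * ζ ^ 5 + (-1) * ζ ^ 7 + (-2) * ζ ^ 8 + (1) * ζ ^ 9 + (-3) * ζ ^ 10)
    (z := (-1) * ζ ^ 0)
    (a := 0)
    (b := (-1) * ζ ^ 0)
    (Q := X ^ 3 - X - 1) (R := 2 * X ^ 0 + 2 * X ^ 2 + 2 * X ^ 3 + 1 * X ^ 5 + 2 * X ^ 7 + 1 * X ^ 8 + 1 * X ^ 9) (T := (-1) * X ^ 0 + (-1) * X ^ 1 + (-1) * X ^ 2 + (-1) * X ^ 3 + (-1) * X ^ 4 + (-1) * X ^ 7 + (-1) * X ^ 8 + (-1) * X ^ 9) ?_ ?_ ?_ ?_ ?_ ?_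
  · simp only [Polynomial.map_sub, Polynomial.map_pow, map_X, Polynomial.map_one]
    monicity!
  · simp only [Polynomial.map_sub, Polynomial.map_pow, map_X, Polynomial.map_one]
    have hd : ((X : (ZMod 3)[X]) ^ 3 - X - 1).natDegree = 3 := by compute_degree!
    refine (irreducible_iff_roots_eq_zero_of_degree_le_three (by rw [hd]; norm_num)
      (by rw [hd])).mpr ?_
    refine Multiset.eq_zero_iff_forall_notMem.mpr fun a ha => ?_
    have := (mem_roots'.mp ha).2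
    simp only [IsRoot, eval_sub, eval_pow, eval_X, eval_one] at this
    exact no_root_cubic a this
  · simp only [Finset.sum_range_succ, Finset.sum_range_zero, eq_intCast]
    push_cast
    ring
  · push_cast
    linear_combination ((-4) * ζ ^ 0 + (3) * ζ ^ 1) * hsum
  · simp only [map_sub, map_pow, aeval_X, map_one, ← hdef]
    linear_combination (0) * hsum
  · simp only [map_sub, map_pow, aeval_X, map_one, ← hdef]
    ring

theorem principal_fiftyThree {ζ : K} (hζ : IsPrimitiveRoot ζ 13) :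
    ∃ P ∈ primesOver (span {((53 : ℕ) : ℤ)}) (𝓞 K), Submodule.IsPrincipal P := by
  have : Fact (Nat.Prime 53) := ⟨by norm_num⟩
  have hsum := sum_pow_eq_zero hζ
  simp only [Finset.sum_range_succ, Finset.sum_range_zero] at hsum
  set ζ := hζ.toInteger with hdef
  refine exists_principal_prime hζ
    (x := (1) * ζ ^ 0 + (1) * ζ ^ 1 + (1) * ζ ^ 3)
    (y := (1) * ζ ^ 0 + (-24) * ζ ^ 1 + (-35) * ζ ^ 2 + (-25) * ζ ^ 3 + (-10) * ζ ^ 4 + (-14) * ζ ^ 5 + (-20) * ζ ^ 6 + (-29) * ζ ^ 7 + (-16) * ζ ^ 8 + (-23) * ζ ^ 9 + (-7) * ζ ^ 10 + (-36) * ζ ^ 11)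
    (z := (17) * ζ ^ 1 + (24) * ζ ^ 2 + (17) * ζ ^ 3 + (7) * ζ ^ 4 + (10) * ζ ^ 5 + (14) * ζ ^ 6 + (20) * ζ ^ 7 + (11) * ζ ^ 8 + (16) * ζ ^ 9 + (5) * ζ ^ 10 + (25) * ζ ^ 11)
    (a := (881) * ζ ^ 0)
    (b := (1297) * ζ ^ 0 + (36) * ζ ^ 1 + (1) * ζ ^ 2)
    (Q := X - C (36 : ℤ)) (R := 25 * X ^ 0 + 36 * X ^ 1 + 26 * X ^ 2 + 11 * X ^ 3 + 15 * X ^ 4 + 21 * X ^ 5 + 30 * X ^ 6 + 17 * X ^ 7 + 24 * X ^ 8 + 8 * X ^ 9 + 37 * X ^ 10 + 1 * X ^ 11) (T := (-17) * X ^ 0 + (-24) * X ^ 1 + (-17) * X ^ 2 + (-7) * X ^ 3 + (-10) * X ^ 4 + (-14) * X ^ 5 + (-20) * X ^ 6 + (-11) * X ^ 7 + (-16) * X ^ 8 + (-5) * X ^ 9 + (-25) * X ^ 10) ?_ ?_ ?_ ?_ ?_ ?_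
  · simp only [Polynomial.map_sub, map_X, map_C]
    exact monic_X_sub_C _
  · simp only [Polynomial.map_sub, map_X, map_C]
    exact irreducible_X_sub_C _
  · simp only [Finset.sum_range_succ, Finset.sum_range_zero, eq_intCast]
    push_cast
    ring
  · push_cast
    linear_combination ((-52) * ζ ^ 0 + (29) * ζ ^ 1 + (-36) * ζ ^ 2) * hsum
  · simp only [map_sub, aeval_X, map_ofNat, ← hdef]
    linear_combination ((36) * ζ ^ 0 + (-20) * ζ ^ 1 + (25) * ζ ^ 2) * hsum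
  · simp only [map_sub, aeval_X, map_ofNat, ← hdef]
    ring

theorem principal_seventyNine {ζ : K} (hζ : IsPrimitiveRoot ζ 13) :
    ∃ P ∈ primesOver (span {((79 : ℕ) : ℤ)}) (𝓞 K), Submodule.IsPrincipal P := by
  have : Fact (Nat.Prime 79) := ⟨by norm_num⟩
  have hsum := sum_pow_eq_zero hζ
  simp only [Finset.sum_range_succ, Finset.sum_range_zero] at hsum
  set ζ := hζ.toInteger with hdef
  refine exists_principal_prime hζ
    (x := (1) * ζ ^ 0 + (1) * ζ ^ 1 + (-1) * ζ ^ 4)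
    (y := (24) * ζ ^ 0 + (-25) * ζ ^ 1 + (-27) * ζ ^ 2 + (10) * ζ ^ 3 + (-3) * ζ ^ 4 + (-39) * ζ ^ 5 + (-5) * ζ ^ 6 + (-2) * ζ ^ 7 + (-18) * ζ ^ 8 + (-38) * ζ ^ 9 + (16) * ζ ^ 10 + (-35) * ζ ^ 11)
    (z := (-19) * ζ ^ 0 + (21) * ζ ^ 1 + (22) * ζ ^ 2 + (-8) * ζ ^ 3 + (3) * ζ ^ 4 + (32) * ζ ^ 5 + (4) * ζ ^ 6 + (2) * ζ ^ 7 + (15) * ζ ^ 8 + (31) * ζ ^ 9 + (-13) * ζ ^ 10 + (29) * ζ ^ 11)
    (a := (-212369) * ζ ^ 0)
    (b := (-262143) * ζ ^ 0 + (-4096) * ζ ^ 1 + (-64) * ζ ^ 2 + (-1) * ζ ^ 3)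
    (Q := X - C (64 : ℤ)) (R := 58 * X ^ 0 + 12 * X ^ 1 + 73 * X ^ 2 + 11 * X ^ 3 + 52 * X ^ 4 + 44 * X ^ 5 + 34 * X ^ 6 + 61 * X ^ 7 + 75 * X ^ 8 + 53 * X ^ 9 + 65 * X ^ 10 + 1 * X ^ 11) (T := (-47) * X ^ 0 + (-9) * X ^ 1 + (-59) * X ^ 2 + (-8) * X ^ 3 + (-42) * X ^ 4 + (-35) * X ^ 5 + (-27) * X ^ 6 + (-49) * X ^ 7 + (-60) * X ^ 8 + (-42) * X ^ 9 + (-52) * X ^ 10) ?_ ?_ ?_ ?_ ?_ ?_
  · simp only [Polynomial.map_sub, map_X, map_C]
    exact monic_X_sub_C _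
  · simp only [Polynomial.map_sub, map_X, map_C]
    exact irreducible_X_sub_C _
  · simp only [Finset.sum_range_succ, Finset.sum_range_zero, eq_intCast]
    push_cast
    ring
  · push_cast
    linear_combination ((-55) * ζ ^ 0 + (54) * ζ ^ 1 + (-51) * ζ ^ 2 + (35) * ζ ^ 3) * hsum
  · simp only [map_sub, aeval_X, map_ofNat, ← hdef]
    linear_combination ((45) * ζ ^ 0 + (-44) * ζ ^ 1 + (42) * ζ ^ 2 + (-29) * ζ ^ 3) * hsum
  · simp only [map_sub, aeval_X, map_ofNat, ← hdef]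
    ring

theorem principal_oneThirtyOne {ζ : K} (hζ : IsPrimitiveRoot ζ 13) :
    ∃ P ∈ primesOver (span {((131 : ℕ) : ℤ)}) (𝓞 K), Submodule.IsPrincipal P := by
  have : Fact (Nat.Prime 131) := ⟨by norm_num⟩
  have hsum := sum_pow_eq_zero hζ
  simp only [Finset.sum_range_succ, Finset.sum_range_zero] at hsum
  set ζ := hζ.toInteger with hdef
  refine exists_principal_prime hζ
    (x := (1) * ζ ^ 0 + (-1) * ζ ^ 1 + (-1) * ζ ^ 3)
    (y := (111) * ζ ^ 0 + (78) * ζ ^ 1 + (17) * ζ ^ 2 + (67) * ζ ^ 3 + (84) * ζ ^ 4 + (40) * ζ ^ 5 + (46) * ζ ^ 6 + (69) * ζ ^ 7 + (48) * ζ ^ 8 + (33) * ζ ^ 9 + (41) * ζ ^ 10 + (28) * ζ ^ 11)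
    (z := (-68) * ζ ^ 0 + (-47) * ζ ^ 1 + (-10) * ζ ^ 2 + (-41) * ζ ^ 3 + (-51) * ζ ^ 4 + (-24) * ζ ^ 5 + (-28) * ζ ^ 6 + (-42) * ζ ^ 7 + (-29) * ζ ^ 8 + (-20) * ζ ^ 9 + (-25) * ζ ^ 10 + (-17) * ζ ^ 11)
    (a := (-3909) * ζ ^ 0)
    (b := (-6401) * ζ ^ 0 + (-80) * ζ ^ 1 + (-1) * ζ ^ 2)
    (Q := X - C (80 : ℤ)) (R := 18 * X ^ 0 + 87 * X ^ 1 + 24 * X ^ 2 + 110 * X ^ 3 + 3 * X ^ 4 + 95 * X ^ 5 + 11 * X ^ 6 + 82 * X ^ 7 + 114 * X ^ 8 + 62 * X ^ 9 + 81 * X ^ 10 + 1 * X ^ 11) (T := (-11) * X ^ 0 + (-53) * X ^ 1 + (-14) * X ^ 2 + (-67) * X ^ 3 + (-1) * X ^ 4 + (-58) * X ^ 5 + (-6) * X ^ 6 + (-50) * X ^ 7 + (-69) * X ^ 8 + (-37) * X ^ 9 + (-49) * X ^ 10) ?_ ?_ ?_ ?_ ?_ ?_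
  · simp only [Polynomial.map_sub, map_X, map_C]
    exact monic_X_sub_C _
  · simp only [Polynomial.map_sub, map_X, map_C]
    exact irreducible_X_sub_C _
  · simp only [Finset.sum_range_succ, Finset.sum_range_zero, eq_intCast]
    push_cast
    ring
  · push_cast
    linear_combination ((-20) * ζ ^ 0 + (-13) * ζ ^ 1 + (-28) * ζ ^ 2) * hsum
  · simp only [map_sub, aeval_X, map_ofNat, ← hdef]
    linear_combination ((12) * ζ ^ 0 + (8) * ζ ^ 1 + (17) * ζ ^ 2) * hsum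
  · simp only [map_sub, aeval_X, map_ofNat, ← hdef]
    ring

theorem principal_oneFiftySeven {ζ : K} (hζ : IsPrimitiveRoot ζ 13) :
    ∃ P ∈ primesOver (span {((157 : ℕ) : ℤ)}) (𝓞 K), Submodule.IsPrincipal P := by
  have : Fact (Nat.Prime 157) := ⟨by norm_num⟩
  have hsum := sum_pow_eq_zero hζ
  simp only [Finset.sum_range_succ, Finset.sum_range_zero] at hsum
  set ζ := hζ.toInteger with hdef
  refine exists_principal_prime hζ
    (x := (1) * ζ ^ 0 + (-1) * ζ ^ 1 + (1) * ζ ^ 2 + (1) * ζ ^ 4)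
    (y := (89) * ζ ^ 0 + (86) * ζ ^ 1 + (42) * ζ ^ 2 + (77) * ζ ^ 3 + (67) * ζ ^ 4 + (25) * ζ ^ 5 + (37) * ζ ^ 6 + (56) * ζ ^ 7 + (73) * ζ ^ 8 + (113) * ζ ^ 9 + (124) * ζ ^ 10 + (76) * ζ ^ 11)
    (z := (-43) * ζ ^ 0 + (-41) * ζ ^ 1 + (-20) * ζ ^ 2 + (-37) * ζ ^ 3 + (-32) * ζ ^ 4 + (-12) * ζ ^ 5 + (-18) * ζ ^ 6 + (-27) * ζ ^ 7 + (-35) * ζ ^ 8 + (-54) * ζ ^ 9 + (-59) * ζ ^ 10 + (-36) * ζ ^ 11)
    (a := (201568) * ζ ^ 0)
    (b := (421949) * ζ ^ 0 + (5626) * ζ ^ 1 + (75) * ζ ^ 2 + (1) * ζ ^ 3)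
    (Q := X - C (75 : ℤ)) (R := 90 * X ^ 0 + 154 * X ^ 1 + 46 * X ^ 2 + 32 * X ^ 3 + 36 * X ^ 4 + 147 * X ^ 5 + 48 * X ^ 6 + 9 * X ^ 7 + 65 * X ^ 8 + 49 * X ^ 9 + 76 * X ^ 10 + 1 * X ^ 11) (T := (-43) * X ^ 0 + (-73) * X ^ 1 + (-21) * X ^ 2 + (-15) * X ^ 3 + (-17) * X ^ 4 + (-70) * X ^ 5 + (-22) * X ^ 6 + (-4) * X ^ 7 + (-31) * X ^ 8 + (-23) * X ^ 9 + (-36) * X ^ 10) ?_ ?_ ?_ ?_ ?_ ?_
  · simp only [Polynomial.map_sub, map_X, map_C]
    exact monic_X_sub_C _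
  · simp only [Polynomial.map_sub, map_X, map_C]
    exact irreducible_X_sub_C _
  · simp only [Finset.sum_range_succ, Finset.sum_range_zero, eq_intCast]
    push_cast
    ring
  · push_cast
    linear_combination ((-68) * ζ ^ 0 + (65) * ζ ^ 1 + (48) * ζ ^ 2 + (76) * ζ ^ 3) * hsum
  · simp only [map_sub, aeval_X, map_ofNat, ← hdef]
    linear_combination ((32) * ζ ^ 0 + (-31) * ζ ^ 1 + (-23) * ζ ^ 2 + (-36) * ζ ^ 3) * hsum
  · simp only [map_sub, aeval_X, map_ofNat, ← hdef]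
    ring

theorem thirteen_pid' : IsPrincipalIdealRing (𝓞 K) := by
  have : Fact (Nat.Prime 13) := ⟨by norm_num⟩
  have hζ := IsCyclotomicExtension.zeta_spec 13 ℚ K
  have : IsGalois ℚ K := IsCyclotomicExtension.isGalois {13} ℚ K
  apply RingOfIntegers.isPrincipalIdealRing_of_isPrincipal_of_lt_or_isPrincipal_of_mem_primesOver_of_mem_Icc
  intro p _ hp
  have hlt := minkowski_lt (K := K)
  have hM := Nat.floor_lt' (a := (4 / π) ^ nrComplexPlaces K * ((Nat.factorial (Module.finrank ℚ K) : ℝ) /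
    (Module.finrank ℚ K : ℝ) ^ Module.finrank ℚ K * √|(NumberField.discr K : ℝ)|))
    (n := 307) (by norm_num) |>.mpr (by exact_mod_cast hlt)
  have : Fact p.Prime := ⟨hp⟩
  by_cases h13 : p = 13
  · subst h13
    obtain ⟨⟨P, hP₁, hP₂⟩⟩ := (span {((13 : ℕ) : ℤ)}).nonempty_primesOver (S := 𝓞 K)
    refine ⟨P, ⟨hP₁, hP₂⟩, .inr ?_⟩
    rw [IsCyclotomicExtension.Rat.eq_span_zeta_sub_one_of_liesOver' 13 K hζ P]
    exact ⟨_, rfl⟩
  by_cases hl : p = 3 ∨ p = 53 ∨ p = 79 ∨ p = 131 ∨ p = 157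
  · obtain ⟨P, hP, hP'⟩ : ∃ P ∈ primesOver (span {(p : ℤ)}) (𝓞 K), Submodule.IsPrincipal P := by
      rcases hl with rfl | rfl | rfl | rfl | rfl
      exacts [principal_three hζ, principal_fiftyThree hζ, principal_seventyNine hζ,
        principal_oneThirtyOne hζ, principal_oneFiftySeven hζ]
    exact ⟨P, hP, .inr hP'⟩
  obtain ⟨⟨P, hP₁, hP₂⟩⟩ := (span {(p : ℤ)}).nonempty_primesOver (S := 𝓞 K)
  refine ⟨P, ⟨hP₁, hP₂⟩, .inl (lt_of_le_of_lt (Nat.le_of_lt_succ hM) ?_)⟩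
  have hndvd : ¬ p ∣ 13 := fun h => h13 ((Nat.prime_dvd_prime_iff_eq hp (by norm_num)).mp h)
  rw [IsCyclotomicExtension.Rat.inertiaDeg_eq_of_not_dvd p K P (m := 13) hndvd]
  set f := orderOf (p : ZMod 13) with hf
  have hf0 : f ≠ 0 := by
    rw [hf, ← Nat.pos_iff_ne_zero]
    refine IsOfFinOrder.orderOf_pos (isOfFinOrder_iff_pow_eq_one.mpr ⟨12, by norm_num, ?_⟩)
    exact ZMod.pow_card_sub_one_eq_one (by
      rw [Ne, ZMod.natCast_eq_zero_iff]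
      exact fun h => h13 ((Nat.prime_dvd_prime_iff_eq (by norm_num) hp).mp h).symm)
  by_contra hle
  have hmod : p ^ f % 13 = 1 := by
    have h := pow_orderOf_eq_one (p : ZMod 13)
    rw [← hf, ← Nat.cast_pow, ← Nat.cast_one] at h
    exact (ZMod.natCast_eq_natCast_iff' _ 1 13).mp h
  obtain ⟨j, hj, hj'⟩ : ∃ j, p ^ f = 13 * j + 1 ∧ j ≤ 23 :=
    ⟨p ^ f / 13, by omega, by omega⟩
  have hmf : (13 * j + 1).minFac = p := by rw [← hj, Nat.Prime.pow_minFac hp hf0]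
  have hf8 : f ≤ 9 := by
    by_contra h
    have : 2 ^ 10 ≤ p ^ f := (Nat.pow_le_pow_left hp.two_le 10).trans
      (Nat.pow_le_pow_right hp.pos (by omega))
    omega
  have hdiv : 13 * j + 1 ∣ (13 * j + 1).minFac ^ 9 := by
    rw [hmf, ← hj]; exact pow_dvd_pow p hf8
  have hp2 := hp.two_le
  have h1 : 1 < p ^ f := Nat.one_lt_pow hf0 hp2
  interval_cases j <;> norm_num at hmf hdiv <;> simp_all

/-- `ℤ[ζ₁₃]` is a principal ideal domain. -/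
theorem thirteen_pid (L : Type*) [Field L] [CharZero L] [IsCyclotomicExtension {13} ℚ L] :
    IsPrincipalIdealRing (𝓞 L) :=
  haveI := IsCyclotomicExtension.numberField {13} ℚ L
  thirteen_pid'

end Fermat.Agent.FLTSmall.Thirteen
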