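import Fermat.Agent.FLTSmall.Main
import Fermat.Agent.FLTSmall.KummerInstances
import Fermat.Agent.FLTSmall.Thirteen

/-! Fermat's Last Theorem for the exponent `13`. -/

set_option autoImplicit false

namespace Fermat.Agent.FLTSmall

open NumberField

theorem residues_fiftyThree : ∀ u v : ZMod 53, u ≠ 0 → v ≠ 0 → u ^ 13 + v ^ 13 ≠ 1 := by
  decide +kernel

theorem not_residue_fiftyThree : ∀ u : ZMod 53, u ^ 13 ≠ ((13 : ℕ) : ZMod 53) := by
  decide +kernel

set_option backward.isDefEq.respectTransparency false in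
theorem flt_thirteen_coprime {a b c : ℤ} (ha : a ≠ 0) (hb : b ≠ 0) (hc : c ≠ 0)
    (hab : IsCoprime a b) : a ^ 13 + b ^ 13 ≠ c ^ 13 := by
  have : Fact (Nat.Prime 13) := ⟨by norm_num⟩
  have : Fact (Nat.Prime 53) := ⟨by norm_num⟩
  let K := CyclotomicField 13 ℚ
  have := CyclotomicField.isCyclotomicExtension 13 ℚ
  have : NumberField K := IsCyclotomicExtension.numberField {13} ℚ _
  have : IsPrincipalIdealRing (𝓞 K) := Thirteen.thirteen_pid K
  exact flt_coprime K ⟨6, rfl⟩ (Kummer.kummer_thirteen K) 53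
    residues_fiftyThree not_residue_fiftyThree ha hb hc hab

end Fermat.Agent.FLTSmall
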