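import Mathlib.NumberTheory.NumberField.Cyclotomic.Ideal
import Mathlib.RingTheory.PrincipalIdealDomain
import Mathlib.RingTheory.RootsOfUnity.CyclotomicUnits
import Mathlib.RingTheory.Polynomial.Cyclotomic.Basic

/-!
# The second case of Fermat's Last Theorem for a prime `p` with `ℤ[ζ_p]` a PID

Kummer's descent, assuming Kummer's lemma on units.
-/

set_option autoImplicit false
set_option linter.unusedSectionVars false

namespace Fermat.Agent.FLTSmall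

open NumberField Polynomial Finset IsCyclotomicExtension.Rat

variable {p : ℕ} [hp : Fact p.Prime] {K : Type*} [Field K] [NumberField K]
  [hcyc : IsCyclotomicExtension {p} ℚ K] {ζ : K} (hζ : IsPrimitiveRoot ζ p)

include hζ

local notation3 "ζ'" => hζ.toInteger
local notation3 "π'" => hζ.toInteger - 1

lemma toInteger_pow_eq_one : ζ' ^ p = 1 := hζ.toInteger_isPrimitiveRoot.pow_eq_one

lemma mem_adjoin_toInteger (x : 𝓞 K) : x ∈ Algebra.adjoin ℤ ({ζ'} : Set (𝓞 K)) := by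
  have h := hζ.integralPowerBasis.adjoin_gen_eq_top
  rw [hζ.integralPowerBasis_gen] at h
  rw [h]; trivial

lemma exists_int_zeta_sub_one_dvd (x : 𝓞 K) : ∃ n : ℤ, π' ∣ x - n := by
  induction mem_adjoin_toInteger hζ x using Algebra.adjoin_induction with
  | mem y hy =>
    rw [Set.mem_singleton_iff] at hy
    exact ⟨1, by simp [hy]⟩
  | algebraMap r => exact ⟨r, by simp⟩
  | add y z _ _ hy hz =>
    obtain ⟨a, ha⟩ := hy
    obtain ⟨b, hb⟩ := hz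
    exact ⟨a + b, by simpa [add_sub_add_comm] using dvd_add ha hb⟩
  | mul y z _ _ hy hz =>
    obtain ⟨a, ha⟩ := hy
    obtain ⟨b, hb⟩ := hz
    refine ⟨a * b, ?_⟩
    rw [show y * z - ((a * b : ℤ) : 𝓞 K) = (y - a) * z + (a : 𝓞 K) * (z - b) by push_cast; ring]
    exact dvd_add (ha.mul_right _) (hb.mul_left _)

lemma exists_int_prime_dvd_pow_sub (x : 𝓞 K) : ∃ n : ℤ, (p : 𝓞 K) ∣ x ^ p - n := by
  induction mem_adjoin_toInteger hζ x using Algebra.adjoin_induction with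
  | mem y hy =>
    rw [Set.mem_singleton_iff] at hy
    exact ⟨1, by simp [hy, toInteger_pow_eq_one hζ]⟩
  | algebraMap r => exact ⟨r ^ p, by simp⟩
  | add y z _ _ hy hz =>
    obtain ⟨a, ha⟩ := hy
    obtain ⟨b, hb⟩ := hz
    obtain ⟨r, hr⟩ := exists_add_pow_prime_eq hp.out y z
    refine ⟨a + b, ?_⟩
    rw [hr, show y ^ p + z ^ p + (p : 𝓞 K) * y * z * r - ((a + b : ℤ) : 𝓞 K)
      = (y ^ p - a) + (z ^ p - b) + (p : 𝓞 K) * (y * z * r) by push_cast; ring]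
    exact dvd_add (dvd_add ha hb) (dvd_mul_right _ _)
  | mul y z _ _ hy hz =>
    obtain ⟨a, ha⟩ := hy
    obtain ⟨b, hb⟩ := hz
    refine ⟨a * b, ?_⟩
    rw [show (y * z) ^ p - ((a * b : ℤ) : 𝓞 K)
      = (y ^ p - a) * z ^ p + (a : 𝓞 K) * (z ^ p - b) by push_cast; ring]
    exact dvd_add (ha.mul_right _) (hb.mul_left _)

lemma zeta_sub_one_dvd_intCast {n : ℤ} : π' ∣ (n : 𝓞 K) ↔ (p : ℤ) ∣ n :=
  zeta_sub_one_dvd_intCast_iff' p hζ

lemma prime_dvd_zeta_sub_one_pow : (p : 𝓞 K) ∣ π' ^ p :=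
  (associated_zeta_sub_one_pow_prime p hζ).dvd'.trans (pow_dvd_pow _ (Nat.sub_le p 1))

lemma exists_quot_zeta_sub_one {x y w : 𝓞 K}
    (h : x ^ p + y ^ p = π' * w) (hodd : Odd p) :
    ∀ η ∈ nthRootsFinset p (1 : 𝓞 K), π' ∣ x + η * y := by
  rw [hζ.toInteger_isPrimitiveRoot.pow_add_pow_eq_prod_add_mul _ _ hodd] at h
  obtain ⟨η₁, hη₁, hd⟩ := hζ.zeta_sub_one_prime'.exists_mem_finset_dvd
    (show π' ∣ ∏ η ∈ nthRootsFinset p (1 : 𝓞 K), (x + η * y) from h ▸ dvd_mul_right _ _)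
  intro η hη
  have hs := (hζ.toInteger_isPrimitiveRoot.sub_one_dvd_sub hp.out hη hη₁).mul_right y
  rw [show x + η * y = (η - η₁) * y + (x + η₁ * y) by ring]
  exact dvd_add hs hd

/-- The quotients `(x + ηy)/π` are pairwise distinct mod `π`, up to units equal to `y`. -/
lemma exists_unit_sub_eq {x y : 𝓞 K} {a : 𝓞 K → 𝓞 K}
    (ha : ∀ η ∈ nthRootsFinset p (1 : 𝓞 K), x + η * y = π' * a η)
    {η η₁ : 𝓞 K} (hη : η ∈ nthRootsFinset p (1 : 𝓞 K))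
    (hη₁ : η₁ ∈ nthRootsFinset p (1 : 𝓞 K)) (hne : η ≠ η₁) :
    ∃ u : (𝓞 K)ˣ, a η - a η₁ = u * y := by
  obtain ⟨u, hu⟩ :=
    hζ.toInteger_isPrimitiveRoot.nthRootsFinset_pairwise_associated_sub_one_sub_of_prime
      hp.out hη hη₁ hne
  refine ⟨u, mul_left_cancel₀ hζ.zeta_sub_one_prime'.ne_zero ?_⟩
  linear_combination (ha η₁ hη₁) - (ha η hη) - y * hu

/-- Some `(x + ηy)/π` is divisible by `π`. -/
lemma exists_root_sq_dvd {x y : 𝓞 K} (hy : ¬ π' ∣ y) {a : 𝓞 K → 𝓞 K}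
    (ha : ∀ η ∈ nthRootsFinset p (1 : 𝓞 K), x + η * y = π' * a η) :
    ∃ η ∈ nthRootsFinset p (1 : 𝓞 K), π' ∣ a η := by
  classical
  choose r hr using fun η ↦ exists_int_zeta_sub_one_dvd hζ (a η)
  have hinj : Set.InjOn (fun η ↦ (r η : ZMod p)) (nthRootsFinset p (1 : 𝓞 K)) := by
    intro η hη η₁ hη₁ heq
    by_contra hne
    obtain ⟨u, hu⟩ := exists_unit_sub_eq hζ ha hη hη₁ hne
    apply hy
    rw [← Units.dvd_mul_left (u := u), ← hu]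
    have h1 : π' ∣ ((r η - r η₁ : ℤ) : 𝓞 K) := by
      rw [zeta_sub_one_dvd_intCast hζ, ← ZMod.intCast_zmod_eq_zero_iff_dvd]
      simpa [sub_eq_zero] using heq
    rw [show a η - a η₁ = (a η - r η) - (a η₁ - r η₁) + ((r η - r η₁ : ℤ) : 𝓞 K) by
      push_cast; ring]
    exact dvd_add (dvd_sub (hr η) (hr η₁)) h1
  have himg : (nthRootsFinset p (1 : 𝓞 K)).image (fun η ↦ (r η : ZMod p)) = univ := by
    refine Finset.eq_univ_of_card _ ?_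
    rw [card_image_of_injOn hinj, hζ.toInteger_isPrimitiveRoot.card_nthRootsFinset, ZMod.card]
  obtain ⟨η, hη, h0⟩ := mem_image.1 (himg ▸ mem_univ (0 : ZMod p))
  refine ⟨η, hη, ?_⟩
  rw [show a η = (a η - r η) + r η by ring]
  refine dvd_add (hr η) ((zeta_sub_one_dvd_intCast hζ).2 ?_)
  rwa [← ZMod.intCast_zmod_eq_zero_iff_dvd]

variable [IsPrincipalIdealRing (𝓞 K)]

/-- The descent step, assuming `π² ∣ x + y`. -/
lemma descent_step (hodd : Odd p)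
    (hKummer : ∀ u : (𝓞 K)ˣ, (∃ n : ℤ, (p : 𝓞 K) ∣ (u : 𝓞 K) - n) → ∃ v, u = v ^ p)
    (n : ℕ) (ε : (𝓞 K)ˣ) (x y z : 𝓞 K) (hxy : IsCoprime x y)
    (hz : ¬ π' ∣ z) (hsq : π' ^ 2 ∣ x + y)
    (h : x ^ p + y ^ p = ε * (π' ^ (n + 1) * z) ^ p) :
    ∃ m, n = m + 1 ∧ ∃ (ε₁ : (𝓞 K)ˣ) (x₁ y₁ z₁ : 𝓞 K), IsCoprime x₁ y₁ ∧ ¬ π' ∣ y₁ ∧
      ¬ π' ∣ z₁ ∧ x₁ ^ p + y₁ ^ p = ε₁ * (π' ^ (m + 1) * z₁) ^ p := by
  classical
  have hprim := hζ.toInteger_isPrimitiveRoot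
  have hπ := hζ.zeta_sub_one_prime'
  have h3 : 3 ≤ p := by
    obtain ⟨k, hk⟩ := hodd; have := hp.out.two_le; omega
  have hdiv : ∀ η ∈ nthRootsFinset p (1 : 𝓞 K), π' ∣ x + η * y := by
    refine exists_quot_zeta_sub_one hζ
      (w := ε * (π' ^ ((n + 1) * p - 1) * z ^ p)) ?_ hodd
    rw [h, mul_pow, ← pow_mul]
    obtain ⟨l, hl⟩ : ∃ l, (n + 1) * p = l + 1 := ⟨_, (Nat.succ_pred_eq_of_pos (by positivity)).symm⟩
    rw [hl, Nat.add_sub_cancel, pow_succ]; ring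
  choose! a ha using hdiv
  -- the three roots
  have hmem : ∀ i : ℕ, ζ' ^ i ∈ nthRootsFinset p (1 : 𝓞 K) := fun i ↦ by
    rw [mem_nthRootsFinset hp.out.pos, ← pow_mul, mul_comm, pow_mul, toInteger_pow_eq_one hζ,
      one_pow]
  have hne : ∀ i j : ℕ, i < p → j < p → i ≠ j → ζ' ^ i ≠ ζ' ^ j :=
    fun i j hi hj hij heq ↦ hij (hprim.pow_inj hi hj heq)
  have h1mem : (1 : 𝓞 K) ∈ nthRootsFinset p (1 : 𝓞 K) := by simpa using hmem 0
  have ha1 : π' ∣ a 1 := by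
    have := ha 1 h1mem
    rw [one_mul] at this
    rw [this, sq] at hsq
    exact (mul_dvd_mul_iff_left hπ.ne_zero).1 hsq
  have hcop : ∀ η ∈ nthRootsFinset p (1 : 𝓞 K), ∀ η₁ ∈ nthRootsFinset p (1 : 𝓞 K),
      η ≠ η₁ → IsCoprime (a η) (a η₁) := by
    intro η hη η₁ hη₁ hne
    obtain ⟨u, hu⟩ := exists_unit_sub_eq hζ ha hη hη₁ hne
    obtain ⟨s, t, hst⟩ := hxy
    have e1 : y = ↑u⁻¹ * (a η - a η₁) := by rw [hu, Units.inv_mul_cancel_left]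
    refine ⟨s * π' + (t - s * η) * ↑u⁻¹, -((t - s * η) * ↑u⁻¹), ?_⟩
    linear_combination hst - s * (ha η hη) - (t - s * η) * e1
  have hnd : ∀ η ∈ nthRootsFinset p (1 : 𝓞 K), η ≠ 1 → ¬ π' ∣ a η := fun η hη hne hd ↦
    hπ.not_isUnit ((hcop η hη 1 h1mem hne).isUnit_of_dvd' hd ha1)
  set R : 𝓞 K := ∏ η ∈ (nthRootsFinset p (1 : 𝓞 K)).erase 1, a η with hR
  have hprod : a 1 * R = ε * (π' ^ (n * p) * z ^ p) := by
    refine mul_left_cancel₀ (pow_ne_zero p hπ.ne_zero) ?_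
    rw [hR, Finset.mul_prod_erase _ _ h1mem]
    rw [hprim.pow_add_pow_eq_prod_add_mul _ _ hodd, Finset.prod_congr rfl ha,
      Finset.prod_mul_distrib, Finset.prod_const, hprim.card_nthRootsFinset] at h
    rw [h, mul_pow, ← pow_mul, add_mul, one_mul, pow_add]; ring
  have hRnd : ¬ π' ∣ R := fun hd ↦ by
    obtain ⟨η, hη, hd⟩ := hπ.exists_mem_finset_dvd hd
    exact hnd η (mem_of_mem_erase hη) (ne_of_mem_erase hη) hd
  obtain ⟨m, rfl⟩ : ∃ m, n = m + 1 := by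
    rcases n with _ | m
    · have : π' ∣ ε * z ^ p := by
        have hd : π' ∣ a 1 * R := ha1.mul_right _
        simpa [hprod] using hd
      exact absurd (hπ.dvd_of_dvd_pow (Units.dvd_mul_left.1 this)) hz
    · exact ⟨m, rfl⟩
  obtain ⟨b, hb⟩ : π' ^ ((m + 1) * p) ∣ a 1 :=
    hπ.pow_dvd_of_dvd_mul_right _ hRnd (hprod ▸ ((dvd_mul_right _ _).mul_left _))
  have hbR : b * R = ε * z ^ p := by
    refine mul_left_cancel₀ (pow_ne_zero ((m + 1) * p) hπ.ne_zero) ?_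
    rw [← mul_assoc, ← hb, hprod]; ring
  have hbcop : ∀ η ∈ nthRootsFinset p (1 : 𝓞 K), η ≠ 1 → IsCoprime (a η) b :=
    fun η hη hne ↦ (hcop η hη 1 h1mem hne).of_isCoprime_of_dvd_right ⟨_, hb.trans (mul_comm _ _)⟩
  -- p-th powers
  have hpow : ∀ η ∈ (nthRootsFinset p (1 : 𝓞 K)).erase 1,
      ∃ ρ, Associated (ρ ^ p) (a η) := by
    intro η hη
    have hη' := mem_of_mem_erase hη
    refine exists_associated_pow_of_associated_pow_mul (c := z)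
      (b := b * ∏ η₁ ∈ ((nthRootsFinset p (1 : 𝓞 K)).erase 1).erase η, a η₁) ?_ ?_
    · refine (hbcop η hη' (ne_of_mem_erase hη)).mul_right (IsCoprime.prod_right fun η₁ hη₁ ↦ ?_)
      exact hcop η hη' η₁ (mem_of_mem_erase (mem_of_mem_erase hη₁)) (ne_of_mem_erase hη₁).symm
    · rw [mul_left_comm, Finset.mul_prod_erase _ _ hη, ← hR, hbR]
      exact (associated_unit_mul_left _ _ ε.isUnit).symm
  have hb' : ∃ ρ, Associated (ρ ^ p) b := by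
    refine exists_associated_pow_of_associated_pow_mul (c := z) (b := R)
      (IsCoprime.prod_right fun η hη ↦ (hbcop η (mem_of_mem_erase hη) (ne_of_mem_erase hη)).symm) ?_
    rw [hbR]
    exact (associated_unit_mul_left _ _ ε.isUnit).symm
  have hz1 : ζ' ∈ nthRootsFinset p (1 : 𝓞 K) := by simpa using hmem 1
  have hz2 : ζ' ^ (p - 1) ∈ nthRootsFinset p (1 : 𝓞 K) := hmem _
  have hn1 : ζ' ≠ 1 := by simpa using hne 1 0 (by omega) (by omega) (by omega)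
  have hn2 : ζ' ^ (p - 1) ≠ 1 := by simpa using hne (p - 1) 0 (by omega) (by omega) (by omega)
  have hn12 : ζ' ≠ ζ' ^ (p - 1) := by simpa using hne 1 (p - 1) (by omega) (by omega) (by omega)
  obtain ⟨ρ₁, u₁, hu₁⟩ := hpow _ (mem_erase.2 ⟨hn1, hz1⟩)
  obtain ⟨ρ₂, u₂, hu₂⟩ := hpow _ (mem_erase.2 ⟨hn2, hz2⟩)
  obtain ⟨ρ₀, u₀, hu₀⟩ := hb'
  obtain ⟨uz, huz⟩ : IsUnit ζ' := hprim.isUnit hp.out.ne_zero
  obtain ⟨u3, hu3⟩ : IsUnit (1 + ζ' : 𝓞 K) := by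
    have := hprim.geom_sum_isUnit hp.out.two_le (j := 2)
      ((Nat.coprime_primes Nat.prime_two hp.out).2 (by omega))
    simpa [Finset.sum_range_succ] using this
  have hlin : a ζ' + ζ' * a (ζ' ^ (p - 1)) = (1 + ζ') * a 1 := by
    refine mul_left_cancel₀ hπ.ne_zero ?_
    have e3 : ζ' * ζ' ^ (p - 1) = 1 := by
      rw [← pow_succ', Nat.sub_add_cancel hp.out.pos, toInteger_pow_eq_one hζ]
    linear_combination (1 + ζ') * (ha 1 h1mem) - (ha _ hz1) - ζ' * (ha _ hz2) + y * e3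
  set η : (𝓞 K)ˣ := u₁⁻¹ * uz * u₂ with hη
  set η' : (𝓞 K)ˣ := u₁⁻¹ * u3 * u₀ with hη'
  have heq : ρ₁ ^ p + η * ρ₂ ^ p = η' * (π' ^ (m + 1) * ρ₀) ^ p := by
    refine mul_left_cancel₀ u₁.ne_zero ?_
    simp only [hη, hη', Units.val_mul, mul_add, ← mul_assoc, Units.mul_inv, one_mul]
    rw [huz, hu3, mul_pow, ← pow_mul]
    rw [← hu₁, ← hu₂, hb, ← hu₀] at hlin
    linear_combination hlin
  have hρ₂ : ¬ π' ∣ ρ₂ := fun hd ↦
    hnd _ hz2 hn2 (hu₂ ▸ ((hd.pow (by omega)).mul_right _))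
  have hρ₀ : ¬ π' ∣ ρ₀ := fun hd ↦ by
    have : π' ∣ ε * z ^ p := hbR ▸ ((hu₀ ▸ (hd.pow (by omega)).mul_right _).mul_right _)
    exact hz (hπ.dvd_of_dvd_pow (Units.dvd_mul_left.1 this))
  obtain ⟨A, hA⟩ := exists_int_prime_dvd_pow_sub hζ ρ₁
  obtain ⟨B, hB⟩ := exists_int_prime_dvd_pow_sub hζ ρ₂
  have hpB : ¬ ((p : ℕ) : ℤ) ∣ B := fun hd ↦ by
    refine hρ₂ (hπ.dvd_of_dvd_pow (n := p) ?_)
    have h1 := ((zeta_sub_one_dvd_intCast hζ).2 hd)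
    have h2 := (hζ.toInteger_sub_one_dvd_prime').trans hB
    simpa using dvd_add h2 h1
  obtain ⟨C, D, hCD⟩ : IsCoprime B ((p : ℕ) : ℤ) :=
    ((Nat.prime_iff_prime_int.1 hp.out).coprime_iff_not_dvd.2 hpB).symm
  have hk1 : ((p : ℕ) : 𝓞 K) ∣ (η : 𝓞 K) - ((-A * C : ℤ) : 𝓞 K) := by
    have h0 : ((p : ℕ) : 𝓞 K) ∣ (η' : 𝓞 K) * (π' ^ (m + 1) * ρ₀) ^ p := by
      refine Dvd.dvd.mul_left ((prime_dvd_zeta_sub_one_pow hζ).trans ?_) _
      exact pow_dvd_pow_of_dvd ((dvd_pow_self _ (Nat.succ_ne_zero m)).mul_right _) _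
    have hCD' : (C : 𝓞 K) * B + (D : 𝓞 K) * ((p : ℕ) : 𝓞 K) = 1 := by
      exact_mod_cast congrArg (Int.cast : ℤ → 𝓞 K) hCD
    have key : (η : 𝓞 K) - ((-A * C : ℤ) : 𝓞 K) = (C : 𝓞 K) * ((η' : 𝓞 K) *
        (π' ^ (m + 1) * ρ₀) ^ p) - (C : 𝓞 K) * (ρ₁ ^ p - A)
        - (η : 𝓞 K) * C * (ρ₂ ^ p - B) + (η : 𝓞 K) * D * ((p : ℕ) : 𝓞 K) := by
      rw [← heq]; push_cast at hCD' ⊢; linear_combination -(η : 𝓞 K) * hCD'
    rw [key]
    exact dvd_add (dvd_sub (dvd_sub (h0.mul_left _) (hA.mul_left _)) (hB.mul_left _))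
      (dvd_mul_left _ _)
  obtain ⟨δ, hδ⟩ := hKummer η ⟨_, hk1⟩
  refine ⟨m, rfl, η', ρ₁, (δ : 𝓞 K) * ρ₂, ρ₀, ?_, ?_, hρ₀, ?_⟩
  · have h12 := hcop _ hz1 _ hz2 hn12
    rw [← hu₁, ← hu₂, isCoprime_mul_unit_right_left u₁.isUnit,
      isCoprime_mul_unit_right_right u₂.isUnit, IsCoprime.pow_iff (by omega) (by omega)] at h12
    exact (isCoprime_mul_unit_left_right δ.isUnit _ _).2 h12
  · rwa [Units.dvd_mul_left]
  · rw [← heq, hδ, Units.val_pow_eq_pow_val, mul_pow]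

theorem no_solution (hodd : Odd p)
    (hKummer : ∀ u : (𝓞 K)ˣ, (∃ n : ℤ, (p : 𝓞 K) ∣ (u : 𝓞 K) - n) → ∃ v, u = v ^ p)
    (n : ℕ) : ∀ (ε : (𝓞 K)ˣ) (x y z : 𝓞 K), IsCoprime x y → ¬ π' ∣ y → ¬ π' ∣ z →
      x ^ p + y ^ p ≠ ε * (π' ^ (n + 1) * z) ^ p := by
  induction n using Nat.strong_induction_on with
  | _ n ih =>
    intro ε x y z hxy hy hz h
    have hdiv := exists_quot_zeta_sub_one hζ (x := x) (y := y)
      (w := ε * (π' ^ ((n + 1) * p - 1) * z ^ p)) (by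
        rw [h, mul_pow, ← pow_mul]
        obtain ⟨l, hl⟩ : ∃ l, (n + 1) * p = l + 1 :=
          ⟨_, (Nat.succ_pred_eq_of_pos (Nat.mul_pos n.succ_pos hp.out.pos)).symm⟩
        rw [hl, Nat.add_sub_cancel, pow_succ]; ring) hodd
    choose! a ha using hdiv
    obtain ⟨η, hη, hd⟩ := exists_root_sq_dvd hζ hy ha
    have hηp : η ^ p = 1 := (mem_nthRootsFinset hp.out.pos _).1 hη
    have hηu : IsUnit η := (isUnit_pow_iff hp.out.ne_zero).1 (hηp ▸ isUnit_one)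
    obtain ⟨m, rfl, ε₁, x₁, y₁, z₁, h1, h2, h3, h4⟩ := descent_step hζ hodd hKummer n ε x (η * y) z
      ((isCoprime_mul_unit_left_right hηu _ _).2 hxy) hz
      (by rw [ha η hη, sq]; exact mul_dvd_mul_left _ hd)
      (by rw [mul_pow, hηp, one_mul]; exact h)
    exact ih m (Nat.lt_succ_self m) ε₁ x₁ y₁ z₁ h1 h2 h3 h4

omit hζ in
/-- **The second case of Fermat's Last Theorem** for a prime `p` such that `ℤ[ζ_p]` is a PID and
satisfies Kummer's lemma on units. -/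
theorem caseII (hodd : Odd p)
    (hKummer : ∀ u : (𝓞 K)ˣ, (∃ n : ℤ, (p : 𝓞 K) ∣ (u : 𝓞 K) - n) → ∃ v, u = v ^ p)
    {a b c : ℤ} (hab : IsCoprime a b) (hbc : IsCoprime b c) (hc : (p : ℤ) ∣ c) (hc0 : c ≠ 0) :
    a ^ p + b ^ p + c ^ p ≠ 0 := by
  intro h
  have hζ := IsCyclotomicExtension.zeta_spec p ℚ K
  have hπ := hζ.zeta_sub_one_prime'
  obtain ⟨n, z, hz, hcz⟩ := WfDvdMonoid.max_power_factor
    (show ((c : ℤ) : 𝓞 K) ≠ 0 from Int.cast_ne_zero.2 hc0) hπ.irreducible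
  have hπc : hζ.toInteger - 1 ∣ ((c : ℤ) : 𝓞 K) := (zeta_sub_one_dvd_intCast hζ).2 hc
  obtain ⟨m, rfl⟩ : ∃ m, n = m + 1 := by
    rcases n with _ | m
    · rw [hcz, pow_zero, one_mul] at hπc; exact absurd hπc hz
    · exact ⟨m, rfl⟩
  refine no_solution hζ hodd hKummer m (-1) (a : 𝓞 K) (b : 𝓞 K) z
    (hab.map (Int.castRingHom (𝓞 K))) ?_ hz ?_
  · rw [zeta_sub_one_dvd_intCast hζ]
    intro hb
    exact (Nat.prime_iff_prime_int.1 hp.out).not_isUnit (hbc.isUnit_of_dvd' hb hc)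
  · rw [← hcz]
    have := congrArg (Int.cast : ℤ → 𝓞 K) h
    push_cast at this ⊢
    linear_combination this

end Fermat.Agent.FLTSmall
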