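import Fermat.Agent.FLTSmall.PrincipalPrime
import Mathlib.NumberTheory.NumberField.Cyclotomic.Embeddings
import Mathlib.NumberTheory.NumberField.ClassNumber
import Mathlib.Analysis.Real.Pi.Bounds
import Mathlib.Tactic.NormNum.Prime

/-!
# `ℤ[ζ₁₁]` is a principal ideal domain

The Minkowski bound is `< 59`; the only relevant split prime is `23 = N(1 - ζ + ζ³)`.
-/

set_option autoImplicit false

namespace Fermat.Agent.FLTSmall

open NumberField Polynomial Ideal InfinitePlace IsCyclotomicExtension.Rat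

lemma eleven_certificates :
    (∑ i ∈ Finset.range 11, (13 : ZMod 23) ^ i = 0) ∧ ((1 : ZMod 23) - 13 + 13 ^ 3 = 0) := by
  decide

lemma eleven_inertia : ∀ n < 61, Nat.Prime n → n ≠ 11 → n ≠ 23 →
    ∀ d ∈ Finset.Icc 1 10, 60 < n ^ d ∨ (n : ZMod 11) ^ d ≠ 1 := by
  decide

variable (K : Type*) [Field K] [NumberField K] [IsCyclotomicExtension {11} ℚ K]

lemma eleven_principal_prime :
    ∃ P ∈ primesOver (span {(23 : ℤ)}) (𝓞 K), Submodule.IsPrincipal P := by
  have : Fact (Nat.Prime 11) := ⟨by norm_num⟩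
  have : Fact (Nat.Prime 23) := ⟨by norm_num⟩
  have hζ := IsCyclotomicExtension.zeta_spec 11 ℚ K
  set z := hζ.toInteger with hz
  have hΦ : ∑ i ∈ Finset.range 11, z ^ i = 0 :=
    hζ.toInteger_isPrimitiveRoot.geom_sum_eq_zero (by norm_num)
  simp only [Finset.sum_range_succ, Finset.sum_range_zero, zero_add, pow_zero, pow_one] at hΦ
  have := exists_principal_primeOver hζ 23 13 (by exact_mod_cast eleven_certificates.1) (1 - z + z ^ 3)
    ⟨8 - 2 * z - z ^ 2 - 8 * z ^ 3 - 5 * z ^ 4 - 3 * z ^ 5 + 6 * z ^ 6 + 12 * z ^ 7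
      + 16 * z ^ 8 + 11 * z ^ 9, by push_cast; linear_combination (15 - 5 * z - 11 * z ^ 2) * hΦ⟩
    ⟨-5 + z + 4 * z ^ 3 + 2 * z ^ 4 + z ^ 5 - 4 * z ^ 6 - 7 * z ^ 7
      - 9 * z ^ 8 - 6 * z ^ 9, by push_cast; linear_combination (-8 + 3 * z + 6 * z ^ 2) * hΦ⟩
    (fun φ hφ ↦ by simp only [map_add, map_sub, map_pow, map_one, hφ, hz]; exact_mod_cast eleven_certificates.2)
  simpa using this

theorem eleven_pid : IsPrincipalIdealRing (𝓞 K) := by
  have : Fact (Nat.Prime 11) := ⟨by norm_num⟩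
  have : IsGalois ℚ K := IsCyclotomicExtension.isGalois {11} ℚ K
  apply RingOfIntegers.isPrincipalIdealRing_of_isPrincipal_of_lt_or_isPrincipal_of_mem_primesOver_of_mem_Icc
  set M := (4 / Real.pi) ^ nrComplexPlaces K *
    ((Module.finrank ℚ K).factorial / (Module.finrank ℚ K) ^ (Module.finrank ℚ K) *
      √|(discr K : ℝ)|) with hM
  have hbound : ⌊M⌋₊ ≤ 60 := by
    refine Nat.le_of_lt_succ ((Nat.floor_lt (by positivity)).2 ?_)
    rw [hM, discr_prime 11 K, IsCyclotomicExtension.finrank (n := 11) K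
      (cyclotomic.irreducible_rat (by norm_num)), nrComplexPlaces_eq_totient_div_two 11,
      Nat.totient_prime (by norm_num)]
    norm_num [Nat.factorial]
    have h1 : √(2357947691 : ℝ) ≤ 48559 := (Real.sqrt_le_left (by norm_num)).2 (by norm_num)
    have h2 : (4 / Real.pi) ≤ 4 / 3.14 := by
      gcongr; exact Real.pi_gt_d2.le
    have h3 : 0 ≤ 4 / Real.pi := by positivity
    calc _ ≤ (4 / 3.14 : ℝ) ^ 5 * ((567 : ℝ) / 1562500 * 48559) := by gcongr
      _ < _ := by norm_num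
  intro q hq hqp
  have hq60 : q ≤ 60 := (Finset.mem_Icc.1 hq).2.trans hbound
  have : Fact q.Prime := ⟨hqp⟩
  have : (span {(q : ℤ)}).IsMaximal := Int.ideal_span_isMaximal_of_prime q
  by_cases h11 : q = 11
  · subst h11
    have hζ := IsCyclotomicExtension.zeta_spec 11 ℚ K
    refine ⟨span {hζ.toInteger - 1}, ⟨?_, ?_⟩, Or.inr ⟨_, rfl⟩⟩
    · rw [span_singleton_prime hζ.zeta_sub_one_prime'.ne_zero]
      exact hζ.zeta_sub_one_prime'
    · constructor
      refine IsMaximal.eq_of_le (Int.ideal_span_isMaximal_of_prime 11) ?_ ?_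
      · rw [under_def]
        refine comap_ne_top _ ?_
        rw [ne_eq, span_singleton_eq_top]
        exact hζ.zeta_sub_one_prime'.not_isUnit
      · rw [span_singleton_le_iff_mem, under_def, mem_comap, map_natCast, mem_span_singleton]
        exact hζ.toInteger_sub_one_dvd_prime'
  by_cases h23 : q = 23
  · subst h23
    obtain ⟨P, hP, hP'⟩ := eleven_principal_prime K
    exact ⟨P, hP, Or.inr hP'⟩
  obtain ⟨⟨P, hP⟩⟩ := (span {(q : ℤ)}).nonempty_primesOver (S := 𝓞 K)
  refine ⟨P, hP, Or.inl ?_⟩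
  have := hP.1
  have := hP.2
  rw [inertiaDeg_eq_of_not_dvd (m := 11) q K P
    (fun h ↦ h11 ((Nat.prime_dvd_prime_iff_eq hqp (by norm_num)).1 h))]
  refine lt_of_le_of_lt hbound ?_
  have key := eleven_inertia
  have hfin : IsOfFinOrder (q : ZMod 11) := by
    refine isOfFinOrder_iff_pow_eq_one.2 ⟨10, by norm_num, ?_⟩
    refine ZMod.pow_card_sub_one_eq_one fun h0 ↦ h11 ?_
    exact ((Nat.prime_dvd_prime_iff_eq (by norm_num) hqp).1
      ((ZMod.natCast_eq_zero_iff q 11).1 h0)).symm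
  have hpos : 0 < orderOf (q : ZMod 11) := orderOf_pos_iff.2 hfin
  have hle : orderOf (q : ZMod 11) ≤ 10 := by
    refine orderOf_le_of_pow_eq_one (by norm_num) (ZMod.pow_card_sub_one_eq_one fun h0 ↦ h11 ?_)
    exact ((Nat.prime_dvd_prime_iff_eq (by norm_num) hqp).1
      ((ZMod.natCast_eq_zero_iff q 11).1 h0)).symm
  exact (key q (Nat.lt_succ_of_le hq60) hqp h11 h23 _ (Finset.mem_Icc.2 ⟨hpos, hle⟩)).resolve_right
    (not_not.2 (pow_orderOf_eq_one _))

end Fermat.Agent.FLTSmall
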