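import Mathlib.NumberTheory.NumberField.Units.DirichletTheorem
import Mathlib.NumberTheory.NumberField.Cyclotomic.Embeddings
import Mathlib.NumberTheory.NumberField.Cyclotomic.Ideal
import Mathlib.RingTheory.RootsOfUnity.CyclotomicUnits
import Mathlib.Algebra.DualNumber
import Mathlib.Algebra.Polynomial.Taylor
import Mathlib.LinearAlgebra.Matrix.Notation

/-!
Kummer's lemma for small regular primes, by a rank computation with the logarithmic derivative of
cyclotomic units modulo `(ζ - 1) ^ (p - 2)`.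
-/

set_option autoImplicit false

namespace Fermat.Agent.FLTSmall.Kummer

open NumberField NumberField.Units Polynomial TrivSqZeroExt
open scoped DualNumber

variable {p : ℕ} [hp : Fact p.Prime] {K : Type*} [Field K] [NumberField K]
  [IsCyclotomicExtension {p} ℚ K] {ζ : K} (hζ : IsPrimitiveRoot ζ p)

/-- The ideal `(ζ - 1) ^ (p - 2)`. -/
noncomputable def dlogIdeal : Ideal (𝓞 K) := Ideal.span {(hζ.toInteger - 1) ^ (p - 2)}

/-- The ring where logarithmic derivatives live. -/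
abbrev DlogRing : Type _ := 𝓞 K ⧸ dlogIdeal hζ

theorem natCast_mem_dlogIdeal : (p : 𝓞 K) ∈ dlogIdeal hζ := by
  rw [dlogIdeal, Ideal.mem_span_singleton]
  exact (pow_dvd_pow _ (Nat.sub_le_sub_left one_le_two p)).trans
    (associated_pow_dvd hζ).dvd
where
  associated_pow_dvd hζ := IsCyclotomicExtension.Rat.associated_zeta_sub_one_pow_prime p hζ

theorem natCast_eq_zero : (p : DlogRing hζ) = 0 := by
  rw [← map_natCast (Ideal.Quotient.mk (dlogIdeal hζ)), Ideal.Quotient.eq_zero_iff_mem]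
  exact natCast_mem_dlogIdeal hζ

theorem derivative_cyclotomic_mem :
    aeval hζ.toInteger (derivative (cyclotomic p ℤ)) ∈ dlogIdeal hζ := by
  set z := hζ.toInteger with hz
  have hz1 : z ^ p = 1 := hζ.toInteger_isPrimitiveRoot.pow_eq_one
  have h0 : aeval z (cyclotomic p ℤ) = 0 := by
    rw [← eval_map_algebraMap, map_cyclotomic]
    exact hζ.toInteger_isPrimitiveRoot.isRoot_cyclotomic hp.out.pos
  have h := congrArg (fun q => aeval z (derivative q)) (cyclotomic_prime_mul_X_sub_one ℤ p)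
  simp only [derivative_mul, derivative_sub, derivative_X, derivative_one, sub_zero, mul_one,
    map_add, map_mul, map_sub, aeval_X, map_one, h0, add_zero, derivative_X_pow, map_pow,
    map_natCast, eq_intCast, Int.cast_natCast] at h
  have hdvd : (z - 1) ^ (p - 1) ∣ aeval z (derivative (cyclotomic p ℤ)) * (z - 1) := by
    rw [h]
    exact (IsCyclotomicExtension.Rat.associated_zeta_sub_one_pow_prime p hζ).dvd.mul_right _
  rw [dlogIdeal, Ideal.mem_span_singleton]
  have hp2 : p - 1 = (p - 2) + 1 := by have := hp.out.two_le; omega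
  rw [hp2, pow_succ] at hdvd
  exact (mul_dvd_mul_iff_right (hζ.zeta_sub_one_prime'.ne_zero)).1 hdvd

/-- `ζ + ζ ε`. -/
noncomputable def dualZeta : (DlogRing hζ)[ε] :=
  inl (Ideal.Quotient.mk (dlogIdeal hζ) hζ.toInteger) +
    inr (Ideal.Quotient.mk (dlogIdeal hζ) hζ.toInteger)

theorem aeval_dualZeta : aeval (dualZeta hζ) (minpoly ℤ hζ.integralPowerBasis.gen) = 0 := by
  have hmin : minpoly ℤ hζ.integralPowerBasis.gen = cyclotomic p ℤ := by
    rw [IsPrimitiveRoot.integralPowerBasis_gen]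
    rw [← minpoly.algebraMap_eq (RingOfIntegers.coe_injective (K := K)) hζ.toInteger]
    exact (cyclotomic_eq_minpoly hζ hp.out.pos).symm
  rw [hmin, dualZeta, aeval_add_of_sq_eq_zero _ _ _ (by rw [pow_two, inr_mul_inr])]
  let f : 𝓞 K →ₐ[ℤ] (DlogRing hζ)[ε] :=
    ((inlHom (DlogRing hζ) (DlogRing hζ)).comp (Ideal.Quotient.mk (dlogIdeal hζ))).toIntAlgHom
  have hf : inl (Ideal.Quotient.mk (dlogIdeal hζ) hζ.toInteger) = f hζ.toInteger := rfl
  rw [hf, aeval_algHom_apply, aeval_algHom_apply]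
  have h0 : aeval hζ.toInteger (cyclotomic p ℤ) = 0 := by
    rw [← eval_map_algebraMap, map_cyclotomic]
    exact hζ.toInteger_isPrimitiveRoot.isRoot_cyclotomic hp.out.pos
  have h1 : f (aeval hζ.toInteger (derivative (cyclotomic p ℤ))) = 0 := by
    show inl (Ideal.Quotient.mk (dlogIdeal hζ) _) = 0
    rw [Ideal.Quotient.eq_zero_iff_mem.2 (derivative_cyclotomic_mem hζ), inl_zero]
  rw [h0, h1, map_zero, zero_mul, add_zero]

/-- `P(ζ) ↦ (P(ζ), ζ P'(ζ))`. -/
noncomputable def dualLift : 𝓞 K →ₐ[ℤ] (DlogRing hζ)[ε] :=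
  hζ.integralPowerBasis.lift (dualZeta hζ) (aeval_dualZeta hζ)

theorem dualLift_zeta : dualLift hζ hζ.toInteger = dualZeta hζ := by
  rw [← IsPrimitiveRoot.integralPowerBasis_gen hζ]
  exact PowerBasis.lift_gen _ _ _

theorem fst_dualLift (x : 𝓞 K) : fst (dualLift hζ x) = Ideal.Quotient.mk (dlogIdeal hζ) x := by
  have h : ((fstHom ℤ (DlogRing hζ) (DlogRing hζ)).comp (dualLift hζ)) =
      (Ideal.Quotient.mk (dlogIdeal hζ)).toIntAlgHom := by
    refine hζ.integralPowerBasis.algHom_ext ?_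
    rw [IsPrimitiveRoot.integralPowerBasis_gen, AlgHom.comp_apply, dualLift_zeta]
    simp [dualZeta]
    rfl
  exact congrArg (fun g : 𝓞 K →ₐ[ℤ] DlogRing hζ => g x) h

/-- The logarithmic derivative of a unit. -/
noncomputable def dlog (u : (𝓞 K)ˣ) : DlogRing hζ :=
  snd (dualLift hζ (u : 𝓞 K)) * fst (dualLift hζ ((u⁻¹ : (𝓞 K)ˣ) : 𝓞 K))

theorem fst_mul_fst_inv (u : (𝓞 K)ˣ) :
    fst (dualLift hζ (u : 𝓞 K)) * fst (dualLift hζ ((u⁻¹ : (𝓞 K)ˣ) : 𝓞 K)) = 1 := by
  rw [← fst_mul, ← map_mul, Units.mul_inv, map_one, fst_one]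

theorem dlog_mul (u v : (𝓞 K)ˣ) : dlog hζ (u * v) = dlog hζ u + dlog hζ v := by
  simp only [dlog, mul_inv, Units.val_mul, map_mul, DualNumber.snd_mul, fst_mul]
  linear_combination (snd (dualLift hζ (v : 𝓞 K)) * fst (dualLift hζ ((v⁻¹ : (𝓞 K)ˣ) : 𝓞 K))) *
      fst_mul_fst_inv hζ u +
    (snd (dualLift hζ (u : 𝓞 K)) * fst (dualLift hζ ((u⁻¹ : (𝓞 K)ˣ) : 𝓞 K))) *
      fst_mul_fst_inv hζ v

theorem dlog_one : dlog hζ 1 = 0 := by
  simp [dlog]

/-- `dlog` as an additive homomorphism. -/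
noncomputable def dlogHom : Additive (𝓞 K)ˣ →+ DlogRing hζ where
  toFun u := dlog hζ u.toMul
  map_zero' := dlog_one hζ
  map_add' u v := dlog_mul hζ u.toMul v.toMul

theorem dlog_prod {ι : Type*} [Fintype ι] (g : ι → (𝓞 K)ˣ) (f : ι → ℤ) :
    dlog hζ (∏ i, g i ^ f i) = ∑ i, f i • dlog hζ (g i) := by
  show dlogHom hζ (Additive.ofMul (∏ i, g i ^ f i)) = _
  simp only [ofMul_prod, map_sum, ofMul_zpow, map_zsmul]
  rfl

theorem dlog_eq_zero_of_congr (u : (𝓞 K)ˣ) {n : ℤ} (h : (p : 𝓞 K) ∣ (u : 𝓞 K) - n) :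
    dlog hζ u = 0 := by
  obtain ⟨x, hx⟩ := h
  have hu : (u : 𝓞 K) = n + p * x := by linear_combination hx
  simp [dlog, hu, natCast_eq_zero]

theorem all_dvd_of_sum_mem (c : ℕ → ℤ) : ∀ m, m ≤ p - 1 →
    (∑ j ∈ Finset.range m, (c j : 𝓞 K) * (hζ.toInteger - 1) ^ j) ∈
      Ideal.span {(hζ.toInteger - 1) ^ m} → ∀ j < m, (p : ℤ) ∣ c j := by
  intro m
  induction m generalizing c with
  | zero => simp
  | succ m ih =>
    intro hm h j hj
    rw [Ideal.mem_span_singleton] at h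
    rw [Finset.sum_range_succ', pow_zero, mul_one] at h
    have hsum : (∑ k ∈ Finset.range m, (c (k + 1) : 𝓞 K) * (hζ.toInteger - 1) ^ (k + 1)) =
        (hζ.toInteger - 1) * ∑ k ∈ Finset.range m, (c (k + 1) : 𝓞 K) * (hζ.toInteger - 1) ^ k := by
      rw [Finset.mul_sum]
      exact Finset.sum_congr rfl fun k _ => by ring
    rw [hsum] at h
    have hc0 : (p : ℤ) ∣ c 0 := by
      rw [← IsCyclotomicExtension.Rat.zeta_sub_one_dvd_intCast_iff' p hζ]
      exact (dvd_add_right (dvd_mul_right _ _)).1 ((dvd_pow_self _ m.succ_ne_zero).trans h)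
    rcases j with _ | j
    · exact hc0
    · refine ih (fun k => c (k + 1)) (by omega) ?_ j (by omega)
      have hpow : (hζ.toInteger - 1) ^ (m + 1) ∣ (c 0 : 𝓞 K) := by
        obtain ⟨d, hd⟩ := hc0
        rw [hd, Int.cast_mul, Int.cast_natCast]
        exact ((pow_dvd_pow _ (by omega)).trans
          (IsCyclotomicExtension.Rat.associated_zeta_sub_one_pow_prime p hζ).dvd).mul_right _
      have := (dvd_add_left hpow).1 h
      rw [pow_succ', mul_dvd_mul_iff_left hζ.zeta_sub_one_prime'.ne_zero] at this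
      exact Ideal.mem_span_singleton.2 this

/-- Kummer's lemma, given enough units with independent logarithmic derivatives. -/
theorem kummer_of_dlog {m : ℕ} (hm : 2 * m + 1 = p) (hp3 : 2 < p) (w : Fin m → (𝓞 K)ˣ)
    (G : Matrix (Fin m) (Fin (p - 2)) ℤ)
    (hG : ∀ i, dlog hζ (w i) =
      ∑ j, (G i j : DlogRing hζ) * Ideal.Quotient.mk (dlogIdeal hζ) (hζ.toInteger - 1) ^ (j : ℕ))
    (H : Matrix (Fin (p - 2)) (Fin m) (ZMod p))
    (hH : G.map (Int.cast : ℤ → ZMod p) * H = 1)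
    (u : (𝓞 K)ˣ) (hu : ∃ n : ℤ, (p : 𝓞 K) ∣ (u : 𝓞 K) - n) : ∃ v : (𝓞 K)ˣ, u = v ^ p := by
  classical
  have hrank : rank K + 1 = m := by
    have h1 := InfinitePlace.nrRealPlaces K
    have hre : InfinitePlace.nrRealPlaces K = 0 :=
      IsCyclotomicExtension.Rat.nrRealPlaces_eq_zero K hp3
    have hco : InfinitePlace.nrComplexPlaces K = m := by
      rw [IsCyclotomicExtension.Rat.nrComplexPlaces_eq_totient_div_two p,
        Nat.totient_prime hp.out]
      omega
    have hcard : Fintype.card (InfinitePlace K) = m := by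
      rw [InfinitePlace.card_eq_nrRealPlaces_add_nrComplexPlaces, hre, hco, zero_add]
    rw [NumberField.Units.rank, hcard]
    omega
  obtain ⟨t, ht⟩ := IsCyclic.exists_generator (α := torsion K)
  let g' : Fin (rank K + 1) → (𝓞 K)ˣ := Fin.cons (t : (𝓞 K)ˣ) (fundSystem K)
  let g : Fin m → (𝓞 K)ˣ := fun i => g' (Fin.cast hrank.symm i)
  have hgen : ∀ x : (𝓞 K)ˣ, ∃ f : Fin m → ℤ, x = ∏ i, g i ^ f i := by
    intro x
    obtain ⟨⟨z, e⟩, hx, -⟩ := exist_unique_eq_mul_prod K x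
    obtain ⟨a, ha⟩ := Subgroup.mem_zpowers_iff.1 (ht z)
    refine ⟨fun i => (Fin.cons a e : Fin (rank K + 1) → ℤ) (Fin.cast hrank.symm i), ?_⟩
    refine Eq.trans ?_ (Fintype.prod_equiv (finCongr hrank.symm)
      (fun i => g i ^ (Fin.cons a e : Fin (rank K + 1) → ℤ) (Fin.cast hrank.symm i))
      (fun i => g' i ^ (Fin.cons a e : Fin (rank K + 1) → ℤ) i) (fun i => rfl)).symm
    rw [Fin.prod_univ_succ]
    simp only [g', Fin.cons_zero, Fin.cons_succ]
    rw [hx]
    congr 1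
    rw [← SubgroupClass.coe_zpow, ha]
  let F : ((Fin m → (𝓞 K)ˣ)) → (Fin m → ZMod p) → DlogRing hζ :=
    fun b e => ∑ i, ((e i).val : DlogRing hζ) * dlog hζ (b i)
  have hpR := natCast_eq_zero hζ
  have hF : ∀ (b : Fin m → (𝓞 K)ˣ) (f : Fin m → ℤ),
      dlog hζ (∏ i, b i ^ f i) = F b (fun i => (f i : ZMod p)) := by
    intro b f
    rw [dlog_prod]
    refine Finset.sum_congr rfl fun i _ => ?_
    rw [zsmul_eq_mul]
    congr 1
    have h : (p : ℤ) ∣ f i - ((f i : ZMod p).val : ℤ) := by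
      rw [← ZMod.intCast_zmod_eq_zero_iff_dvd]
      simp
    obtain ⟨d, hd⟩ := h
    have := congrArg (Int.cast : ℤ → DlogRing hζ) hd
    push_cast at this
    rw [hpR, zero_mul, sub_eq_zero] at this
    exact this
  have hinj : Function.Injective (F w) := by
    intro a b hab
    let c : Fin (p - 2) → ℤ := fun j => ∑ i, (((a i).val : ℤ) - (b i).val) * G i j
    have hc : ∀ j : Fin (p - 2), ((c j : ZMod p)) = 0 := by
      intro j
      rw [ZMod.intCast_zmod_eq_zero_iff_dvd]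
      let c' : ℕ → ℤ := fun k => if h : k < p - 2 then c ⟨k, h⟩ else 0
      have := all_dvd_of_sum_mem hζ c' (p - 2) (by omega) ?_ j j.2
      · simpa [c'] using this
      rw [← dlogIdeal, ← Ideal.Quotient.eq_zero_iff_mem, map_sum, Finset.sum_range]
      simp only [F, hG] at hab
      rw [← sub_eq_zero, ← Finset.sum_sub_distrib] at hab
      rw [← hab]
      simp only [c', Fin.is_lt, dite_true, Fin.eta, c, map_sum, map_mul, map_pow, map_intCast, Int.cast_sum,
        Int.cast_mul, Int.cast_sub, Int.cast_natCast, ← sub_mul]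
      simp only [Finset.sum_mul, Finset.mul_sum, map_sum, map_mul, map_sub, map_intCast, map_natCast]
      rw [Finset.sum_comm]
      exact Finset.sum_congr rfl fun i _ => Finset.sum_congr rfl fun j _ => by ring
    have h2 : Matrix.vecMul (a - b) (G.map (Int.cast : ℤ → ZMod p)) = 0 := by
      funext j
      have := hc j
      simp only [c, Int.cast_sum, Int.cast_mul, Int.cast_sub, Int.cast_natCast,
        ZMod.natCast_zmod_val] at this
      simpa [Matrix.vecMul, dotProduct] using this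
    have h3 := congrArg (fun v => Matrix.vecMul v H) h2
    simp only [Matrix.vecMul_vecMul, hH, Matrix.vecMul_one, Matrix.zero_vecMul] at h3
    exact sub_eq_zero.1 h3
  have hsub : Set.range (F w) ⊆ Set.range (F g) := by
    rintro x ⟨e, rfl⟩
    obtain ⟨f, hf⟩ := hgen (∏ i, w i ^ ((e i).val : ℤ))
    refine ⟨fun i => (f i : ZMod p), ?_⟩
    rw [← hF g f, ← hf, hF w]
    simp
  have hginj : Function.Injective (F g) := by
    have h1 : (Finset.univ.image (F w)) ⊆ (Finset.univ.image (F g)) := by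
      intro x hx
      simp only [Finset.mem_image, Finset.mem_univ, true_and] at hx ⊢
      exact hsub hx
    have h2 := Finset.card_le_card h1
    rw [Finset.card_image_of_injective _ hinj] at h2
    have h3 := le_antisymm Finset.card_image_le h2
    have h4 := Finset.card_image_iff.1 h3
    intro a b hab
    exact h4 (Finset.mem_coe.2 (Finset.mem_univ a)) (Finset.mem_coe.2 (Finset.mem_univ b)) hab
  obtain ⟨n, hn⟩ := hu
  obtain ⟨f, hf⟩ := hgen u
  have h0 : F g (fun i => (f i : ZMod p)) = F g 0 := by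
    rw [← hF g f, ← hf, dlog_eq_zero_of_congr hζ u hn]
    simp [F]
  have hdvd : ∀ i, (p : ℤ) ∣ f i := fun i =>
    (ZMod.intCast_zmod_eq_zero_iff_dvd _ _).1 (congrFun (hginj h0) i)
  choose d hd using hdvd
  refine ⟨∏ i, g i ^ d i, ?_⟩
  rw [hf, ← Finset.prod_pow]
  exact Finset.prod_congr rfl fun i _ => by rw [hd i, mul_comm, zpow_mul, zpow_natCast]

theorem dlog_zeta {w : (𝓞 K)ˣ} (hw : (w : 𝓞 K) = hζ.toInteger) : dlog hζ w = 1 := by
  have h := fst_mul_fst_inv hζ w
  rw [hw, dualLift_zeta] at h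
  rw [dlog, hw, dualLift_zeta]
  simpa [dualZeta] using h

theorem dlog_geomSum {w : (𝓞 K)ˣ} {k : ℕ}
    (hw : (w : 𝓞 K) = ∑ i ∈ Finset.range k, hζ.toInteger ^ i) (g : 𝓞 K)
    (hg : (∑ i ∈ Finset.range k, (i : 𝓞 K) * hζ.toInteger ^ i) -
      (∑ i ∈ Finset.range k, hζ.toInteger ^ i) * g ∈ dlogIdeal hζ) :
    dlog hζ w = Ideal.Quotient.mk (dlogIdeal hζ) g := by
  have hsnd : snd (dualLift hζ (w : 𝓞 K)) =
      Ideal.Quotient.mk (dlogIdeal hζ) (∑ i ∈ Finset.range k, (i : 𝓞 K) * hζ.toInteger ^ i) := by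
    rw [hw, map_sum, TrivSqZeroExt.snd_sum, map_sum]
    refine Finset.sum_congr rfl fun i _ => ?_
    rcases i with _ | i
    · simp [dualLift_zeta]
    · simp [dualLift_zeta, dualZeta]
      ring
  have h2 : Ideal.Quotient.mk (dlogIdeal hζ) (∑ i ∈ Finset.range k, (i : 𝓞 K) * hζ.toInteger ^ i) =
      fst (dualLift hζ (w : 𝓞 K)) * Ideal.Quotient.mk (dlogIdeal hζ) g := by
    rw [fst_dualLift, ← map_mul, Ideal.Quotient.eq, hw]
    exact hg
  rw [dlog, hsnd, h2]
  linear_combination Ideal.Quotient.mk (dlogIdeal hζ) g * fst_mul_fst_inv hζ w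

end Fermat.Agent.FLTSmall.Kummer
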