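import Fermat.Agent.FLTSmall.SophieGermain
import Fermat.Agent.FLTSmall.CaseII

/-!
# Fermat's Last Theorem for a prime exponent `p` with `ℤ[ζ_p]` a PID

Combines Sophie Germain's theorem (first case) with Kummer's descent (second case).
-/

set_option autoImplicit false

namespace Fermat.Agent.FLTSmall

open NumberField

variable {p : ℕ} [Fact p.Prime] (K : Type*) [Field K] [NumberField K]
  [IsCyclotomicExtension {p} ℚ K] [IsPrincipalIdealRing (𝓞 K)]

/-- FLT for exponent `p`, coprime form, assuming Kummer's lemma and an auxiliary prime `q`. -/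
theorem flt_coprime (hodd : Odd p)
    (hKummer : ∀ u : (𝓞 K)ˣ, (∃ n : ℤ, (p : 𝓞 K) ∣ (u : 𝓞 K) - n) → ∃ v, u = v ^ p)
    (q : ℕ) [Fact q.Prime] (hcons : ∀ u v : ZMod q, u ≠ 0 → v ≠ 0 → u ^ p + v ^ p ≠ 1)
    (hnpow : ∀ u : ZMod q, u ^ p ≠ (p : ZMod q))
    {a b c : ℤ} (ha : a ≠ 0) (hb : b ≠ 0) (hc : c ≠ 0) (hab : IsCoprime a b) :
    a ^ p + b ^ p ≠ c ^ p := by
  intro h
  have hp : p.Prime := Fact.out
  have hp0 : 0 < p := hp.pos
  have h' : a ^ p + b ^ p + (-c) ^ p = 0 := by rw [hodd.neg_pow, h, add_neg_cancel]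
  have hbc : IsCoprime b (-c) := by
    rw [IsCoprime.neg_right_iff, ← IsCoprime.pow_iff hp0 hp0, ← h]
    simpa using (hab.symm.pow (m := p) (n := p)).add_mul_left_right 1
  have hca : IsCoprime (-c) a := by
    rw [IsCoprime.neg_left_iff, ← IsCoprime.pow_iff hp0 hp0, ← h]
    simpa [add_comm] using (hab.symm.pow (m := p) (n := p)).add_mul_left_left 1
  by_cases h1 : (p : ℤ) ∣ -c
  · exact caseII hodd hKummer hab hbc h1 (neg_ne_zero.2 hc) h'
  by_cases h2 : (p : ℤ) ∣ a
  · exact caseII hodd hKummer hbc hca h2 ha (by linear_combination h')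
  by_cases h3 : (p : ℤ) ∣ b
  · exact caseII hodd hKummer hca hab h3 hb (by linear_combination h')
  exact sophieGermain hp hodd hcons hnpow hab hbc hca h2 h3 h1 h'

end Fermat.Agent.FLTSmall
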