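import Mathlib.NumberTheory.NumberField.Cyclotomic.Ideal

/-!
# Certificates for principal primes of degree one in cyclotomic fields
-/

set_option autoImplicit false

namespace Fermat.Agent.FLTSmall

open NumberField Polynomial Ideal

variable {p : ℕ} [hp : Fact p.Prime] {K : Type*} [Field K] [NumberField K]
  [hcyc : IsCyclotomicExtension {p} ℚ K] {ζ : K} (hζ : IsPrimitiveRoot ζ p)

include hζ

/-- Evaluation `ζ ↦ r` as a ring hom to `ZMod q`, when `r` is a root of `Φ_p` mod `q`. -/
lemma exists_evalHom (q : ℕ) (r : ZMod q) (hr : ∑ i ∈ Finset.range p, r ^ i = 0) :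
    ∃ φ : 𝓞 K →+* ZMod q, φ hζ.toInteger = r := by
  have hmin : minpoly ℤ hζ.integralPowerBasis.gen = cyclotomic p ℤ := by
    rw [hζ.integralPowerBasis_gen, ← RingOfIntegers.minpoly_coe]
    exact (cyclotomic_eq_minpoly hζ hp.out.pos).symm
  have h0 : aeval r (minpoly ℤ hζ.integralPowerBasis.gen) = 0 := by
    rw [hmin, cyclotomic_prime, map_sum]
    simpa using hr
  refine ⟨(hζ.integralPowerBasis.lift r h0).toRingHom, ?_⟩
  have := hζ.integralPowerBasis.lift_gen r h0
  rw [hζ.integralPowerBasis_gen] at this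
  simpa using this

/-- If `α` divides both `q` and `ζ - r`, and vanishes at `ζ = r` mod `q`, then `(α)` is a
principal prime above `q`. -/
theorem exists_principal_primeOver (q : ℕ) [hq : Fact q.Prime] (r : ℤ)
    (hr : ∑ i ∈ Finset.range p, (r : ZMod q) ^ i = 0) (α : 𝓞 K)
    (h1 : α ∣ (q : 𝓞 K)) (h2 : α ∣ hζ.toInteger - r)
    (hα : ∀ φ : 𝓞 K →+* ZMod q, φ hζ.toInteger = r → φ α = 0) :
    ∃ P ∈ primesOver (span {(q : ℤ)}) (𝓞 K), Submodule.IsPrincipal P := by
  obtain ⟨φ, hφ⟩ := exists_evalHom hζ q (r : ZMod q) hr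
  have hmod : ∀ x : 𝓞 K, ∃ n : ℤ, α ∣ x - n := by
    intro x
    have hx : x ∈ Algebra.adjoin ℤ ({hζ.toInteger} : Set (𝓞 K)) := by
      have h := hζ.integralPowerBasis.adjoin_gen_eq_top
      rw [hζ.integralPowerBasis_gen] at h
      rw [h]; trivial
    induction hx using Algebra.adjoin_induction with
    | mem y hy =>
      rw [Set.mem_singleton_iff] at hy
      exact ⟨r, hy ▸ h2⟩
    | algebraMap m => exact ⟨m, by simp⟩
    | add y z _ _ hy hz =>
      obtain ⟨a, ha⟩ := hy
      obtain ⟨b, hb⟩ := hz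
      exact ⟨a + b, by simpa [add_sub_add_comm] using dvd_add ha hb⟩
    | mul y z _ _ hy hz =>
      obtain ⟨a, ha⟩ := hy
      obtain ⟨b, hb⟩ := hz
      refine ⟨a * b, ?_⟩
      rw [show y * z - ((a * b : ℤ) : 𝓞 K) = (y - a) * z + (a : 𝓞 K) * (z - b) by push_cast; ring]
      exact dvd_add (ha.mul_right _) (hb.mul_left _)
  have hα0 := hα φ hφ
  have hker : RingHom.ker φ = span {α} := by
    refine le_antisymm (fun x hx ↦ ?_) ((span_singleton_le_iff_mem _).2 hα0)
    obtain ⟨n, t, ht⟩ := hmod x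
    have hn : (n : ZMod q) = 0 := by
      have := congrArg φ ht
      simp only [map_sub, map_mul, map_intCast, hα0, zero_mul,
        show φ x = 0 from hx, zero_sub, neg_eq_zero] at this
      exact this
    obtain ⟨m, rfl⟩ := (ZMod.intCast_zmod_eq_zero_iff_dvd n q).1 hn
    rw [mem_span_singleton, sub_eq_iff_eq_add.1 ht]
    refine dvd_add (dvd_mul_right _ _) ?_
    push_cast
    exact h1.mul_right _
  refine ⟨span {α}, ⟨?_, ?_⟩, ⟨α, rfl⟩⟩
  · rw [← hker]; exact RingHom.ker_isPrime φ
  · constructor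
    refine IsMaximal.eq_of_le (Int.ideal_span_isMaximal_of_prime q) ?_ ?_
    · have := RingHom.ker_isPrime φ
      rw [← hker, under_def]
      exact comap_ne_top _ this.ne_top
    · rw [span_singleton_le_iff_mem, under_def, mem_comap, map_natCast, mem_span_singleton]
      exact h1

end Fermat.Agent.FLTSmall
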