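import Mathlib.RingTheory.Int.Basic
import Mathlib.Algebra.Field.GeomSum
import Mathlib.Algebra.Field.ZMod
import Mathlib.Tactic.LinearCombination
import Mathlib.Tactic.IntervalCases

/-!
# Sophie Germain's theorem (first case of Fermat's Last Theorem)
-/

set_option autoImplicit false

namespace Fermat.Agent.FLTSmall

open Finset

/-- `S(y,z) = (y^p + z^p)/(y+z)` as a geometric sum. -/
def germainSum {R : Type*} [CommRing R] (p : ℕ) (y z : R) : R :=
  ∑ i ∈ range p, y ^ i * (-z) ^ (p - 1 - i)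

lemma germainSum_mul {R : Type*} [CommRing R] {p : ℕ} (hp : Odd p) (y z : R) :
    (y + z) * germainSum p y z = y ^ p + z ^ p := by
  have h := (Commute.all y (-z)).geom_sum₂_mul p
  rw [hp.neg_pow] at h
  rw [germainSum]
  linear_combination h

lemma germainSum_of_add_eq_zero {R : Type*} [CommRing R] {p : ℕ} {y z : R} (h : y + z = 0) :
    germainSum p y z = p * y ^ (p - 1) := by
  have hz : -z = y := by linear_combination -h
  rw [germainSum, hz, geom_sum₂_self]

lemma factor_isPow {p : ℕ} (hp : p.Prime) (hodd : Odd p) {x y z : ℤ} (hyz : IsCoprime y z)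
    (hx : ¬ (p : ℤ) ∣ x) (h : x ^ p + y ^ p + z ^ p = 0) :
    ∃ a α : ℤ, y + z = a ^ p ∧ germainSum p y z = α ^ p := by
  have hm : (y + z) * germainSum p y z = (-x) ^ p := by
    rw [germainSum_mul hodd, hodd.neg_pow]
    linear_combination h
  have hcop : IsCoprime (y + z) (germainSum p y z) := by
    refine isCoprime_of_prime_dvd (fun hh ↦ ?_) fun q hq hq1 hq2 ↦ ?_
    · have hx0 : x ≠ 0 := fun h0 ↦ hx (h0 ▸ dvd_zero _)
      rw [hh.1, zero_mul] at hm
      exact hx0 (by simpa using (pow_eq_zero_iff hp.ne_zero).1 hm.symm)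
    · have hq1' : (q : ℤ) ∣ y + z := hq1
      have hsub : (y + z) ∣ germainSum p y z - p * y ^ (p - 1) := by
        have : (Int.castRingHom (ZMod (y + z).natAbs)) (germainSum p y z - p * y ^ (p - 1)) = 0 := by
          have h0 : ((y : ZMod (y + z).natAbs)) + (z : ZMod (y + z).natAbs) = 0 := by
            rw [← Int.cast_add, ZMod.intCast_zmod_eq_zero_iff_dvd]
            exact Int.natAbs_dvd_self
          have hg := germainSum_of_add_eq_zero (p := p) h0
          simp only [germainSum] at hg ⊢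
          simp [hg]
        rw [Int.coe_castRingHom, ZMod.intCast_zmod_eq_zero_iff_dvd] at this
        exact Int.natAbs_dvd.1 this
      have hq3 : q ∣ (p : ℤ) * y ^ (p - 1) := by
        have := dvd_sub hq2 (hq1'.trans hsub)
        simpa using this
      rcases hq.dvd_or_dvd hq3 with h3 | h3
      · have hqp : Associated q (p : ℤ) :=
          hq.associated_of_dvd (Nat.prime_iff_prime_int.1 hp) h3
        apply hx
        have hp' : Prime (p : ℤ) := Nat.prime_iff_prime_int.1 hp
        have : (p : ℤ) ∣ (-x) ^ p := by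
          rw [← hm]; exact Dvd.dvd.mul_right (hqp.dvd'.trans hq1) _
        exact (dvd_neg).1 (hp'.dvd_of_dvd_pow this)
      · have hy : q ∣ y := hq.dvd_of_dvd_pow h3
        have hz : q ∣ z := by simpa using dvd_sub hq1 hy
        exact hq.not_isUnit (hyz.isUnit_of_dvd' hy hz)
  obtain ⟨⟨a, ha⟩, ⟨α, hα⟩⟩ := Int.eq_pow_of_mul_eq_pow_odd hcop hodd hm
  exact ⟨a, α, ha, hα⟩

/-- **Sophie Germain's theorem**: with an auxiliary prime `q` such that there are no two
consecutive nonzero `p`-th powers mod `q` and `p` is not a `p`-th power mod `q`, the first case of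
Fermat's Last Theorem holds for `p`. -/
theorem sophieGermain {p q : ℕ} (hp : p.Prime) (hodd : Odd p) [hq : Fact q.Prime]
    (hcons : ∀ u v : ZMod q, u ≠ 0 → v ≠ 0 → u ^ p + v ^ p ≠ 1)
    (hnpow : ∀ u : ZMod q, u ^ p ≠ (p : ZMod q))
    {x y z : ℤ} (hxy : IsCoprime x y) (hyz : IsCoprime y z) (hzx : IsCoprime z x)
    (hx : ¬ (p : ℤ) ∣ x) (hy : ¬ (p : ℤ) ∣ y) (hz : ¬ (p : ℤ) ∣ z) :
    x ^ p + y ^ p + z ^ p ≠ 0 := by
  intro h
  have key : ∀ u v w : ZMod q, u ^ p + v ^ p + w ^ p = 0 → u = 0 ∨ v = 0 ∨ w = 0 := by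
    intro u v w huvw
    by_contra! hne
    obtain ⟨hu, hv, hw⟩ := hne
    refine hcons (-u / w) (-v / w) (div_ne_zero (neg_ne_zero.2 hu) hw)
      (div_ne_zero (neg_ne_zero.2 hv) hw) ?_
    rw [div_pow, div_pow, hodd.neg_pow, hodd.neg_pow, ← add_div,
      div_eq_one_iff_eq (pow_ne_zero _ hw)]
    linear_combination -huvw
  wlog hxq : (x : ZMod q) = 0 generalizing x y z
  · have h0 := key (x : ZMod q) y z (by exact_mod_cast congrArg (Int.cast : ℤ → ZMod q) h)
    rcases h0 with h0 | h0 | h0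
    · exact hxq h0
    · exact this hyz hzx hxy hy hz hx (by linear_combination h) h0
    · exact this hzx hxy hyz hz hx hy (by linear_combination h) h0
  obtain ⟨a, α, ha, hα⟩ := factor_isPow hp hodd hyz hx h
  obtain ⟨b, β, hb, -⟩ := factor_isPow hp hodd hzx hy (x := y) (y := z) (z := x)
    (by linear_combination h)
  obtain ⟨c, γ, hc, -⟩ := factor_isPow hp hodd hxy hz (x := z) (y := x) (z := y)
    (by linear_combination h)
  replace ha : (y : ZMod q) + z = (a : ZMod q) ^ p := by exact_mod_cast congrArg _ ha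
  replace hb : (z : ZMod q) + x = (b : ZMod q) ^ p := by exact_mod_cast congrArg _ hb
  replace hc : (x : ZMod q) + y = (c : ZMod q) ^ p := by exact_mod_cast congrArg _ hc
  replace hα : germainSum p (y : ZMod q) (z : ZMod q) = (α : ZMod q) ^ p := by
    have := congrArg (Int.castRingHom (ZMod q)) hα
    simpa [germainSum] using this
  rw [hxq] at hb hc
  rw [add_zero] at hb
  rw [zero_add] at hc
  have hne : ∀ {s t : ℤ}, IsCoprime s t → (s : ZMod q) = 0 → (t : ZMod q) ≠ 0 := by
    intro s t hst hs ht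
    have := hst.map (Int.castRingHom (ZMod q))
    simp [hs, ht] at this
  have hy0 : (y : ZMod q) ≠ 0 := hne hxy hxq
  have hz0 : (z : ZMod q) ≠ 0 := hne hzx.symm hxq
  have ha0 : (a : ZMod q) = 0 := by
    rcases key (-(a : ZMod q)) b c (by rw [hodd.neg_pow, ← ha, ← hb, ← hc]; ring) with h0 | h0 | h0
    · exact neg_eq_zero.1 h0
    · exact absurd (by rw [hb, h0, zero_pow hp.ne_zero]) hz0
    · exact absurd (by rw [hc, h0, zero_pow hp.ne_zero]) hy0
  rw [ha0, zero_pow hp.ne_zero] at ha
  rw [germainSum_of_add_eq_zero ha, hc] at hα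
  have hc0 : (c : ZMod q) ^ (p - 1) ≠ 0 := by
    refine pow_ne_zero _ fun h0 ↦ hy0 ?_
    rw [hc, h0, zero_pow hp.ne_zero]
  refine hnpow (α / (c : ZMod q) ^ (p - 1)) ?_
  rw [div_pow, ← hα, ← pow_mul, ← pow_mul, mul_comm (p - 1) p, mul_div_assoc, div_self, mul_one]
  rw [mul_comm, pow_mul]
  exact pow_ne_zero _ hc0

end Fermat.Agent.FLTSmall
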